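import Fermat.Statements.S51

/-!
# S51, final arithmetic step

A semistable integral model cannot have `j`-invariant equal to one of the four non-cuspidal
rational `j`-values of `X₀(15)`; these are parametrised by the Hauptmodul `s` of `X₀(3)`
through `c₄ ^ 3 * s = Δ * (s + 27) * (s + 3) ^ 3`.
-/

set_option autoImplicit false

namespace Fermat.Agent.S51

/-- Semistability gives coprimality of `c₄` and `Δ`. -/
theorem isCoprime_c₄_Δ_of_isSemistableModel (W : WeierstrassCurve ℤ)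
    (hW : W.IsSemistableModel) : IsCoprime W.c₄ W.Δ := by
  rw [Int.isCoprime_iff_gcd_eq_one]
  by_contra hne
  obtain ⟨p, hp, hpd⟩ := Nat.exists_prime_and_dvd hne
  have h1 : (p : ℤ) ∣ W.c₄ :=
    (Int.natCast_dvd_natCast.mpr hpd).trans (Int.gcd_dvd_left _ _)
  have h2 : (p : ℤ) ∣ W.Δ :=
    (Int.natCast_dvd_natCast.mpr hpd).trans (Int.gcd_dvd_right _ _)
  exact hW p hp h2 h1

/-- Pure arithmetic: `A * c ^ 3 = B * d` with `gcd (c, d) = 1 = gcd (A, B)`, `d ≠ 0`, forces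
`± B` to be a cube. -/
theorem cube_eq_of_coprime_eq (c d A B : ℤ) (hd : d ≠ 0) (hcop : IsCoprime c d)
    (hAB : IsCoprime A B) (h : A * c ^ 3 = B * d) : c ^ 3 = B ∨ c ^ 3 = -B := by
  have h1 : d ∣ A := by
    have h2 : d ∣ A * c ^ 3 := ⟨B, by rw [h]; ring⟩
    exact (hcop.symm.pow_right (n := 3)).dvd_of_dvd_mul_right h2
  obtain ⟨a, ha⟩ := h1
  have h3 : a * c ^ 3 = B := by
    have h4 : d * (a * c ^ 3) = d * B := by
      rw [← mul_assoc, ← ha, h]; ring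
    exact mul_left_cancel₀ hd h4
  have h5 : IsUnit a :=
    hAB.isUnit_of_dvd' ⟨d, by rw [ha]; ring⟩ ⟨c ^ 3, h3.symm⟩
  rcases Int.isUnit_iff.mp h5 with h6 | h6
  · left; rw [← h3, h6, one_mul]
  · right; rw [← h3, h6]; ring

theorem not_cube_mod_nine (c B : ℤ)
    (hB : ∀ x : ZMod 9, x ^ 3 ≠ (B : ZMod 9) ∧ x ^ 3 ≠ -(B : ZMod 9)) :
    ¬ (c ^ 3 = B ∨ c ^ 3 = -B) := by
  rintro (h | h)
  · have := congrArg (fun z : ℤ => (z : ZMod 9)) h
    simp only [Int.cast_pow] at this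
    exact (hB (c : ZMod 9)).1 this
  · have := congrArg (fun z : ℤ => (z : ZMod 9)) h
    simp only [Int.cast_pow, Int.cast_neg] at this
    exact (hB (c : ZMod 9)).2 this

theorem semistable_j_contra (W : WeierstrassCurve ℤ) (hΔ : W.Δ ≠ 0) (hW : W.IsSemistableModel)
    (s : ℚ) (hs : s = -32 ∨ s = -729/32 ∨ s = -729/2 ∨ s = -2)
    (hj : (W.c₄ : ℚ) ^ 3 * s = (W.Δ : ℚ) * (s + 27) * (s + 3) ^ 3) : False := by
  have hcop := isCoprime_c₄_Δ_of_isSemistableModel W hW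
  rcases hs with rfl | rfl | rfl | rfl
  · -- `s = -32`: `-32 c₄³ = 121945 Δ`
    have h : ((-32 : ℤ) : ℚ) * (W.c₄ : ℚ) ^ 3 = ((121945 : ℤ) : ℚ) * (W.Δ : ℚ) := by
      push_cast
      linear_combination hj
    have h' : (-32 : ℤ) * W.c₄ ^ 3 = 121945 * W.Δ := by exact_mod_cast h
    refine not_cube_mod_nine W.c₄ 121945 (by decide)
      (cube_eq_of_coprime_eq W.c₄ W.Δ (-32) 121945 hΔ hcop ?_ h')
    rw [Int.isCoprime_iff_gcd_eq_one]; decide
  · -- `s = -729/32`: `32768 c₄³ = 46969655 Δ`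
    have h : ((32768 : ℤ) : ℚ) * (W.c₄ : ℚ) ^ 3 = ((46969655 : ℤ) : ℚ) * (W.Δ : ℚ) := by
      push_cast
      linear_combination (-1048576 / 729 : ℚ) * hj
    have h' : (32768 : ℤ) * W.c₄ ^ 3 = 46969655 * W.Δ := by exact_mod_cast h
    refine not_cube_mod_nine W.c₄ 46969655 (by decide)
      (cube_eq_of_coprime_eq W.c₄ W.Δ 32768 46969655 hΔ hcop ?_ h')
    rw [Int.isCoprime_iff_gcd_eq_one]; decide
  · -- `s = -729/2`: `-8 c₄³ = 349938025 Δ`
    have h : ((-8 : ℤ) : ℚ) * (W.c₄ : ℚ) ^ 3 = ((349938025 : ℤ) : ℚ) * (W.Δ : ℚ) := by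
      push_cast
      linear_combination (16 / 729 : ℚ) * hj
    have h' : (-8 : ℤ) * W.c₄ ^ 3 = 349938025 * W.Δ := by exact_mod_cast h
    refine not_cube_mod_nine W.c₄ 349938025 (by decide)
      (cube_eq_of_coprime_eq W.c₄ W.Δ (-8) 349938025 hΔ hcop ?_ h')
    rw [Int.isCoprime_iff_gcd_eq_one]; decide
  · -- `s = -2`: `-2 c₄³ = 25 Δ`
    have h : ((-2 : ℤ) : ℚ) * (W.c₄ : ℚ) ^ 3 = ((25 : ℤ) : ℚ) * (W.Δ : ℚ) := by
      push_cast
      linear_combination hj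
    have h' : (-2 : ℤ) * W.c₄ ^ 3 = 25 * W.Δ := by exact_mod_cast h
    refine not_cube_mod_nine W.c₄ 25 (by decide)
      (cube_eq_of_coprime_eq W.c₄ W.Δ (-2) 25 hΔ hcop ?_ h')
    rw [Int.isCoprime_iff_gcd_eq_one]; decide

end Fermat.Agent.S51
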