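import Fermat.Agent.S51.KeyIdentityCore

/-!
# The key identity for `X₀(15)` and the `j`-relation for `X₀(3)`, in general coordinates

`b2 b4 b6 b8` are the `b`-invariants of a Weierstrass curve over a field `K`,
`x3` is the `x`-coordinate of a point of order `3` (a root of `ψ₃`), and `x5`, `x5'` are the
`x`-coordinates of `P`, `2 P` for a point `P` of order `5`.  With

* `B(x) = 4 x³ + b₂ x² + 2 b₄ x + b₆`, `A(x) = x⁴ - b₄ x² - 2 b₆ x - b₈` (so `x(2P) = A/B`),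
* `s = (6 x3² + b₂ x3 + b₄)³ / B(x3)² - 27`,
* `v = -(x5 - x5')² / ((x3 - x5) (x3 - x5'))`,

we prove `(v + 1) s² + 5 v³ s - (v - 9) v⁵ = 0` and `c₄³ s = Δ (s + 27) (s + 3)³`.
-/

set_option autoImplicit false

namespace Fermat.Agent.S51

variable {K : Type*} [Field K]

/-- The key identity, polynomial form (denominators cleared). -/
theorem key_identity_poly (h2 : (2 : K) ≠ 0) (b2 b4 b6 b8 x3 x5 x5' : K)
    (hb : 4 * b8 = b2 * b6 - b4 ^ 2)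
    (h3 : 3 * x3 ^ 4 + b2 * x3 ^ 3 + 3 * b4 * x3 ^ 2 + 3 * b6 * x3 + b8 = 0)
    (h5 : x5 ^ 4 - b4 * x5 ^ 2 - 2 * b6 * x5 - b8 =
      x5' * (4 * x5 ^ 3 + b2 * x5 ^ 2 + 2 * b4 * x5 + b6))
    (h5' : x5' ^ 4 - b4 * x5' ^ 2 - 2 * b6 * x5' - b8 =
      x5 * (4 * x5' ^ 3 + b2 * x5' ^ 2 + 2 * b4 * x5' + b6))
    (hne : x5 ≠ x5') (h35 : x3 ≠ x5) (h35' : x3 ≠ x5')
    (B4 B6 E D : K) (hB4 : B4 = 6 * x3 ^ 2 + b2 * x3 + b4)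
    (hB6 : B6 = 4 * x3 ^ 3 + b2 * x3 ^ 2 + 2 * b4 * x3 + b6)
    (hE : E = -(x5 - x5') ^ 2) (hD : D = (x3 - x5) * (x3 - x5')) :
    (E + D) * D ^ 5 * (B4 ^ 3 - 27 * B6 ^ 2) ^ 2
      + 5 * E ^ 3 * D ^ 3 * (B4 ^ 3 - 27 * B6 ^ 2) * B6 ^ 2
      - (E - 9 * D) * E ^ 5 * B6 ^ 4 = 0 := by
  have hu : x5 - x5' ≠ 0 := sub_ne_zero.mpr hne
  have hD0 : D ≠ 0 := by
    rw [hD]; exact mul_ne_zero (sub_ne_zero.mpr h35) (sub_ne_zero.mpr h35')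
  -- translated relations
  have hR1 : (x5 - x3) ^ 4 - B4 * (x5 - x3) ^ 2 - 2 * B6 * (x5 - x3)
      - (x5' - x3) * (4 * (x5 - x3) ^ 3 + (b2 + 12 * x3) * (x5 - x3) ^ 2
        + 2 * B4 * (x5 - x3) + B6) = 0 := by
    rw [hB4, hB6]; linear_combination h5 + h3
  have hR2 : (x5' - x3) ^ 4 - B4 * (x5' - x3) ^ 2 - 2 * B6 * (x5' - x3)
      - (x5 - x3) * (4 * (x5' - x3) ^ 3 + (b2 + 12 * x3) * (x5' - x3) ^ 2
        + 2 * B4 * (x5' - x3) + B6) = 0 := by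
    rw [hB4, hB6]; linear_combination h5' + h3
  have hR3 : (b2 + 12 * x3) * B6 - B4 ^ 2 = 0 := by
    rw [hB4, hB6]; linear_combination 4 * h3 - hb
  -- symmetric functions
  have hRa : ((x5 - x3) + (x5' - x3)) ^ 3
      - 6 * ((x5 - x3) + (x5' - x3)) * ((x5 - x3) * (x5' - x3))
      - B4 * ((x5 - x3) + (x5' - x3)) - (b2 + 12 * x3) * ((x5 - x3) * (x5' - x3)) - B6 = 0 := by
    have h : (x5 - x5') * (((x5 - x3) + (x5' - x3)) ^ 3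
      - 6 * ((x5 - x3) + (x5' - x3)) * ((x5 - x3) * (x5' - x3))
      - B4 * ((x5 - x3) + (x5' - x3)) - (b2 + 12 * x3) * ((x5 - x3) * (x5' - x3)) - B6) = 0 := by
      linear_combination hR1 - hR2
    exact (mul_eq_zero.mp h).resolve_left hu
  have hRc : ((x5 - x3) + (x5' - x3)) ^ 2 * ((x5 - x3) * (x5' - x3))
      - 5 * ((x5 - x3) * (x5' - x3)) ^ 2 + B4 * ((x5 - x3) * (x5' - x3))
      + B6 * ((x5 - x3) + (x5' - x3)) = 0 := by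
    have h : (2 : K) * (((x5 - x3) + (x5' - x3)) ^ 2 * ((x5 - x3) * (x5' - x3))
      - 5 * ((x5 - x3) * (x5' - x3)) ^ 2 + B4 * ((x5 - x3) * (x5' - x3))
      + B6 * ((x5 - x3) + (x5' - x3))) = 0 := by
      linear_combination ((x5 - x3) + (x5' - x3)) * hRa - hR1 - hR2
    exact (mul_eq_zero.mp h).resolve_left h2
  have hs2 : (x5 - x3) * (x5' - x3) ≠ 0 :=
    mul_ne_zero (sub_ne_zero.mpr (Ne.symm h35)) (sub_ne_zero.mpr (Ne.symm h35'))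
  have hcore := key_identity_core (b2 + 12 * x3) B4 B6 ((x5 - x3) + (x5' - x3))
    ((x5 - x3) * (x5' - x3)) hRa hRc hR3 hs2
  have hE' : E = 4 * ((x5 - x3) * (x5' - x3)) - ((x5 - x3) + (x5' - x3)) ^ 2 := by
    rw [hE]; ring
  have hD' : D = (x5 - x3) * (x5' - x3) := by rw [hD]; ring
  rw [hE', hD']
  exact hcore

/-- Passage from the polynomial form to the form with fractions. -/
theorem key_identity_frac (B4 B6 E D s v : K) (hB6 : B6 ≠ 0) (hD : D ≠ 0)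
    (hs : s = B4 ^ 3 / B6 ^ 2 - 27) (hv : v = E / D)
    (hN : (E + D) * D ^ 5 * (B4 ^ 3 - 27 * B6 ^ 2) ^ 2
      + 5 * E ^ 3 * D ^ 3 * (B4 ^ 3 - 27 * B6 ^ 2) * B6 ^ 2
      - (E - 9 * D) * E ^ 5 * B6 ^ 4 = 0) :
    (v + 1) * s ^ 2 + 5 * v ^ 3 * s - (v - 9) * v ^ 5 = 0 := by
  have key : (v + 1) * s ^ 2 + 5 * v ^ 3 * s - (v - 9) * v ^ 5 =
      ((E + D) * D ^ 5 * (B4 ^ 3 - 27 * B6 ^ 2) ^ 2
      + 5 * E ^ 3 * D ^ 3 * (B4 ^ 3 - 27 * B6 ^ 2) * B6 ^ 2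
      - (E - 9 * D) * E ^ 5 * B6 ^ 4) / (D ^ 6 * B6 ^ 4) := by
    rw [hs, hv]
    field_simp
  rw [key, hN, zero_div]

/-- **Key identity** relating the Hauptmodul `s` of `X₀(3)` and the function `v` on `X₀(15)`. -/
theorem key_identity (h2 : (2 : K) ≠ 0) (b2 b4 b6 b8 x3 x5 x5' : K)
    (hb : 4 * b8 = b2 * b6 - b4 ^ 2)
    (h3 : 3 * x3 ^ 4 + b2 * x3 ^ 3 + 3 * b4 * x3 ^ 2 + 3 * b6 * x3 + b8 = 0)
    (h5 : x5 ^ 4 - b4 * x5 ^ 2 - 2 * b6 * x5 - b8 =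
      x5' * (4 * x5 ^ 3 + b2 * x5 ^ 2 + 2 * b4 * x5 + b6))
    (h5' : x5' ^ 4 - b4 * x5' ^ 2 - 2 * b6 * x5' - b8 =
      x5 * (4 * x5' ^ 3 + b2 * x5' ^ 2 + 2 * b4 * x5' + b6))
    (hne : x5 ≠ x5') (h35 : x3 ≠ x5) (h35' : x3 ≠ x5')
    (hB : 4 * x3 ^ 3 + b2 * x3 ^ 2 + 2 * b4 * x3 + b6 ≠ 0)
    (s v : K)
    (hs : s = (6 * x3 ^ 2 + b2 * x3 + b4) ^ 3 / (4 * x3 ^ 3 + b2 * x3 ^ 2 + 2 * b4 * x3 + b6) ^ 2
      - 27)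
    (hv : v = -(x5 - x5') ^ 2 / ((x3 - x5) * (x3 - x5'))) :
    (v + 1) * s ^ 2 + 5 * v ^ 3 * s - (v - 9) * v ^ 5 = 0 :=
  key_identity_frac _ _ _ _ s v hB
    (mul_ne_zero (sub_ne_zero.mpr h35) (sub_ne_zero.mpr h35')) hs hv
    (key_identity_poly h2 b2 b4 b6 b8 x3 x5 x5' hb h3 h5 h5' hne h35 h35'
      _ _ _ _ rfl rfl rfl rfl)

/-- The `j`-relation in translated coordinates (`b₈ = 0`). -/
theorem j_relation_core (B2 B4 B6 s : K) (hR3 : B2 * B6 - B4 ^ 2 = 0) (hB6 : B6 ≠ 0)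
    (hs : s = B4 ^ 3 / B6 ^ 2 - 27) :
    (B2 ^ 2 - 24 * B4) ^ 3 * s = (B4 ^ 3 - 27 * B6 ^ 2) * (s + 27) * (s + 3) ^ 3 := by
  have hB2 : B2 = B4 ^ 2 / B6 := by
    field_simp
    linear_combination hR3
  rw [hs, hB2]
  field_simp
  ring

/-- The `j`-relation for the Hauptmodul `s` of `X₀(3)`:
`c₄³ s = Δ (s + 27) (s + 3)³`. -/
theorem j_relation (b2 b4 b6 b8 x3 : K)
    (hb : 4 * b8 = b2 * b6 - b4 ^ 2)
    (h3 : 3 * x3 ^ 4 + b2 * x3 ^ 3 + 3 * b4 * x3 ^ 2 + 3 * b6 * x3 + b8 = 0)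
    (hB : 4 * x3 ^ 3 + b2 * x3 ^ 2 + 2 * b4 * x3 + b6 ≠ 0)
    (c4 Δ s : K) (hc4 : c4 = b2 ^ 2 - 24 * b4)
    (hΔ : Δ = -b2 ^ 2 * b8 - 8 * b4 ^ 3 - 27 * b6 ^ 2 + 9 * b2 * b4 * b6)
    (hs : s = (6 * x3 ^ 2 + b2 * x3 + b4) ^ 3 / (4 * x3 ^ 3 + b2 * x3 ^ 2 + 2 * b4 * x3 + b6) ^ 2
      - 27) :
    c4 ^ 3 * s = Δ * (s + 27) * (s + 3) ^ 3 := by
  have hR3 : (b2 + 12 * x3) * (4 * x3 ^ 3 + b2 * x3 ^ 2 + 2 * b4 * x3 + b6)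
      - (6 * x3 ^ 2 + b2 * x3 + b4) ^ 2 = 0 := by
    linear_combination 4 * h3 - hb
  have hc4' : c4 = (b2 + 12 * x3) ^ 2 - 24 * (6 * x3 ^ 2 + b2 * x3 + b4) := by
    rw [hc4]; ring
  have hΔ' : Δ = (6 * x3 ^ 2 + b2 * x3 + b4) ^ 3
      - 27 * (4 * x3 ^ 3 + b2 * x3 ^ 2 + 2 * b4 * x3 + b6) ^ 2 := by
    rw [hΔ]
    linear_combination (-(b2 + 12 * x3) ^ 2) * h3
      + (9 * (6 * x3 ^ 2 + b2 * x3 + b4)) * hR3 + (6 * x3 * (b2 + 6 * x3)) * hb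
  rw [hc4', hΔ']
  exact j_relation_core _ _ _ s hR3 hB hs

end Fermat.Agent.S51
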