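import Fermat.Agent.S51.SValues
import Fermat.Agent.S51.Final
import Fermat.Agent.S51.KeyIdentity

/-!
# S51: core of the final assembly

Given the `x`-coordinates `x3` (rational) of a point of order `3` and `x5`, `x5'` of a point of
order `5` and its double (with rational symmetric functions) on a semistable integral model,
we derive a contradiction from the key identity, the descent on `X₀(15)` and the `j`-relation.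
-/

set_option autoImplicit false

namespace Fermat.Agent.S51

/-- In translated coordinates the discriminant is `β³ - 27 B²`. -/
theorem disc_eq_of_three_torsion {K : Type*} [Field K] (b2 b4 b6 b8 x3 : K)
    (hb : 4 * b8 = b2 * b6 - b4 ^ 2)
    (h3 : 3 * x3 ^ 4 + b2 * x3 ^ 3 + 3 * b4 * x3 ^ 2 + 3 * b6 * x3 + b8 = 0) :
    -b2 ^ 2 * b8 - 8 * b4 ^ 3 - 27 * b6 ^ 2 + 9 * b2 * b4 * b6 =
      (6 * x3 ^ 2 + b2 * x3 + b4) ^ 3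
        - 27 * (4 * x3 ^ 3 + b2 * x3 ^ 2 + 2 * b4 * x3 + b6) ^ 2 := by
  have hR3 : (b2 + 12 * x3) * (4 * x3 ^ 3 + b2 * x3 ^ 2 + 2 * b4 * x3 + b6)
      - (6 * x3 ^ 2 + b2 * x3 + b4) ^ 2 = 0 := by
    linear_combination 4 * h3 - hb
  linear_combination (-(b2 + 12 * x3) ^ 2) * h3
    + (9 * (6 * x3 ^ 2 + b2 * x3 + b4)) * hR3 + (6 * x3 * (b2 + 6 * x3)) * hb

/-- Core of the final assembly of S51. -/
theorem assembly_core (W : WeierstrassCurve ℤ) (hΔ : W.Δ ≠ 0) (hW : W.IsSemistableModel)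
    {K : Type*} [Field K] [CharZero K]
    (x3 x5 x5' : K) (r3 σ₁ π₁ : ℚ)
    (hx3 : x3 = (r3 : K)) (hσ : x5 + x5' = (σ₁ : K)) (hπ : x5 * x5' = (π₁ : K))
    (h3 : 3 * x3 ^ 4 + (W.b₂ : K) * x3 ^ 3 + 3 * (W.b₄ : K) * x3 ^ 2 + 3 * (W.b₆ : K) * x3
      + (W.b₈ : K) = 0)
    (hB : 4 * x3 ^ 3 + (W.b₂ : K) * x3 ^ 2 + 2 * (W.b₄ : K) * x3 + (W.b₆ : K) ≠ 0)
    (h5 : x5 ^ 4 - (W.b₄ : K) * x5 ^ 2 - 2 * (W.b₆ : K) * x5 - (W.b₈ : K) =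
      x5' * (4 * x5 ^ 3 + (W.b₂ : K) * x5 ^ 2 + 2 * (W.b₄ : K) * x5 + (W.b₆ : K)))
    (h5' : x5' ^ 4 - (W.b₄ : K) * x5' ^ 2 - 2 * (W.b₆ : K) * x5' - (W.b₈ : K) =
      x5 * (4 * x5' ^ 3 + (W.b₂ : K) * x5' ^ 2 + 2 * (W.b₄ : K) * x5' + (W.b₆ : K)))
    (hne : x5 ≠ x5') (h35 : x3 ≠ x5) (h35' : x3 ≠ x5') : False := by
  -- the relation between the `b`'s, over `ℤ`, `ℚ` and `K`
  have hbZ : 4 * W.b₈ = W.b₂ * W.b₆ - W.b₄ ^ 2 := W.b_relation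
  have hbQ : 4 * (W.b₈ : ℚ) = (W.b₂ : ℚ) * (W.b₆ : ℚ) - (W.b₄ : ℚ) ^ 2 := by exact_mod_cast hbZ
  have hbK : 4 * (W.b₈ : K) = (W.b₂ : K) * (W.b₆ : K) - (W.b₄ : K) ^ 2 := by exact_mod_cast hbZ
  -- rational versions of the `3`-torsion data
  subst hx3
  have h3Q : 3 * r3 ^ 4 + (W.b₂ : ℚ) * r3 ^ 3 + 3 * (W.b₄ : ℚ) * r3 ^ 2 + 3 * (W.b₆ : ℚ) * r3
      + (W.b₈ : ℚ) = 0 := by
    have : ((3 * r3 ^ 4 + (W.b₂ : ℚ) * r3 ^ 3 + 3 * (W.b₄ : ℚ) * r3 ^ 2 + 3 * (W.b₆ : ℚ) * r3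
      + (W.b₈ : ℚ) : ℚ) : K) = ((0 : ℚ) : K) := by
      push_cast
      exact h3
    exact Rat.cast_injective this
  have hBQ : 4 * r3 ^ 3 + (W.b₂ : ℚ) * r3 ^ 2 + 2 * (W.b₄ : ℚ) * r3 + (W.b₆ : ℚ) ≠ 0 := by
    intro h0
    apply hB
    have := congrArg (Rat.cast : ℚ → K) h0
    push_cast at this
    exact this
  -- the invariants
  obtain ⟨s, hs⟩ : ∃ s : ℚ, s = (6 * r3 ^ 2 + (W.b₂ : ℚ) * r3 + (W.b₄ : ℚ)) ^ 3 /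
      (4 * r3 ^ 3 + (W.b₂ : ℚ) * r3 ^ 2 + 2 * (W.b₄ : ℚ) * r3 + (W.b₆ : ℚ)) ^ 2 - 27 := ⟨_, rfl⟩
  obtain ⟨v, hv⟩ : ∃ v : ℚ, v = -(σ₁ ^ 2 - 4 * π₁) / (r3 ^ 2 - σ₁ * r3 + π₁) := ⟨_, rfl⟩
  have hsK : (s : K) = (6 * (r3 : K) ^ 2 + (W.b₂ : K) * r3 + (W.b₄ : K)) ^ 3 /
      (4 * (r3 : K) ^ 3 + (W.b₂ : K) * r3 ^ 2 + 2 * (W.b₄ : K) * r3 + (W.b₆ : K)) ^ 2 - 27 := by
    rw [hs]; push_cast; rfl
  have hE : -((x5 - x5') ^ 2) = -(((σ₁ : K)) ^ 2 - 4 * (π₁ : K)) := by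
    rw [← hσ, ← hπ]; ring
  have hD : ((r3 : K) - x5) * ((r3 : K) - x5') = (r3 : K) ^ 2 - (σ₁ : K) * r3 + (π₁ : K) := by
    rw [← hσ, ← hπ]; ring
  have hvK : (v : K) = -(x5 - x5') ^ 2 / (((r3 : K) - x5) * ((r3 : K) - x5')) := by
    rw [hv, hD, hE]; push_cast; ring
  have hkeyK := key_identity (K := K) (by norm_num) (W.b₂ : K) (W.b₄ : K) (W.b₆ : K) (W.b₈ : K)
    (r3 : K) x5 x5' hbK h3 h5 h5' hne h35 h35' hB (s : K) (v : K) hsK hvK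
  have hkey : (v + 1) * s ^ 2 + 5 * v ^ 3 * s - (v - 9) * v ^ 5 = 0 := by
    have : (((v + 1) * s ^ 2 + 5 * v ^ 3 * s - (v - 9) * v ^ 5 : ℚ) : K) = ((0 : ℚ) : K) := by
      push_cast
      exact hkeyK
    exact Rat.cast_injective this
  -- non-vanishing
  have hΔQ : (W.Δ : ℚ) ≠ 0 := by exact_mod_cast hΔ
  have hΔeq : (W.Δ : ℚ) = -(W.b₂ : ℚ) ^ 2 * (W.b₈ : ℚ) - 8 * (W.b₄ : ℚ) ^ 3
      - 27 * (W.b₆ : ℚ) ^ 2 + 9 * (W.b₂ : ℚ) * (W.b₄ : ℚ) * (W.b₆ : ℚ) := by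
    rw [WeierstrassCurve.Δ]; push_cast; ring
  have hc4eq : (W.c₄ : ℚ) = (W.b₂ : ℚ) ^ 2 - 24 * (W.b₄ : ℚ) := by
    rw [WeierstrassCurve.c₄]; push_cast; ring
  have hs0 : s ≠ 0 := by
    intro h0
    apply hΔQ
    rw [hΔeq, disc_eq_of_three_torsion _ _ _ _ r3 hbQ h3Q]
    rw [h0] at hs
    have h1 : (6 * r3 ^ 2 + (W.b₂ : ℚ) * r3 + (W.b₄ : ℚ)) ^ 3 /
      (4 * r3 ^ 3 + (W.b₂ : ℚ) * r3 ^ 2 + 2 * (W.b₄ : ℚ) * r3 + (W.b₆ : ℚ)) ^ 2 = 27 := by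
      linarith
    rw [div_eq_iff (pow_ne_zero 2 hBQ)] at h1
    linarith
  have hv0 : v ≠ 0 := by
    intro h0
    have h1 : (v : K) = 0 := by rw [h0]; simp
    rw [hvK, div_eq_zero_iff] at h1
    rcases h1 with h1 | h1
    · have h2 : (x5 - x5') ^ 2 = 0 := by linear_combination -h1
      exact hne (sub_eq_zero.mp (pow_eq_zero_iff two_ne_zero |>.mp h2))
    · exact (mul_ne_zero (sub_ne_zero.mpr h35) (sub_ne_zero.mpr h35')) h1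
  have hsval := s_of_key_identity s v hs0 hv0 hkey
  have hj := j_relation (K := ℚ) (W.b₂ : ℚ) (W.b₄ : ℚ) (W.b₆ : ℚ) (W.b₈ : ℚ) r3 hbQ h3Q hBQ
    (W.c₄ : ℚ) (W.Δ : ℚ) s hc4eq hΔeq hs
  exact semistable_j_contra W hΔ hW s hsval hj

end Fermat.Agent.S51
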