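import Mathlib

/-!
# S51 front end, part (E): existence of points of exact order `3` and `5`

For a Weierstrass curve `W` over an algebraically closed field `K` of characteristic zero with
`W.Δ ≠ 0` we construct points `P ≠ 0` with `3 • P = 0`, resp. `5 • P = 0`.

Notation (all in terms of the `b`-invariants of `W`):
* `exB x = 4x³ + b₂x² + 2b₄x + b₆` (the square of `2y + a₁x + a₃` on the curve),
* `exA x = x⁴ - b₄x² - 2b₆x - b₈` (so that `x(2P) · exB x = exA x`),
* `exPsi3 x = x · exB x - exA x = 3x⁴ + b₂x³ + 3b₄x² + 3b₆x + b₈`,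
* `exC x = 6x² + b₂x + b₄` (half the derivative of `exB`),
* `exQ x = exB⁴ - exC · exPsi3 · exB² + exPsi3³` (minus the fifth division polynomial).
-/

set_option autoImplicit false

namespace Fermat.Agent.S51

open WeierstrassCurve WeierstrassCurve.Affine

section Field

variable {K : Type*} [Field K] (W : WeierstrassCurve K)

/-- `B(x) = 4x³ + b₂x² + 2b₄x + b₆`. -/
def exB (x : K) : K := 4 * x ^ 3 + W.b₂ * x ^ 2 + 2 * W.b₄ * x + W.b₆

/-- `A(x) = x⁴ - b₄x² - 2b₆x - b₈`. -/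
def exA (x : K) : K := x ^ 4 - W.b₄ * x ^ 2 - 2 * W.b₆ * x - W.b₈

/-- `ψ₃(x) = 3x⁴ + b₂x³ + 3b₄x² + 3b₆x + b₈`. -/
def exPsi3 (x : K) : K := 3 * x ^ 4 + W.b₂ * x ^ 3 + 3 * W.b₄ * x ^ 2 + 3 * W.b₆ * x + W.b₈

/-- `C(x) = 6x² + b₂x + b₄`. -/
def exC (x : K) : K := 6 * x ^ 2 + W.b₂ * x + W.b₄

/-- `Q(x) = B⁴ - C ψ₃ B² + ψ₃³`, which is minus the fifth division polynomial. -/
def exQ (x : K) : K :=
  exB W x ^ 4 - exC W x * exPsi3 W x * exB W x ^ 2 + exPsi3 W x ^ 3

lemma exPsi3_eq (x : K) : exPsi3 W x = x * exB W x - exA W x := by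
  unfold exPsi3 exB exA; ring

/-- Bezout identity: `A` and `B` have no common zero when `Δ ≠ 0`. -/
lemma ex_bezout (x : K) :
    (W.b₂ ^ 2 - 32 * W.b₄ - 8 * W.b₂ * x - 48 * x ^ 2) * exA W x +
      (12 * x ^ 3 - W.b₂ * x ^ 2 - 10 * W.b₄ * x + W.b₂ * W.b₄ - 27 * W.b₆) * exB W x = W.Δ := by
  unfold exA exB
  rw [WeierstrassCurve.Δ]
  linear_combination (12 * x ^ 2 + 2 * W.b₂ * x + 8 * W.b₄) * W.b_relation

lemma exA_ne_zero_of_exB_eq_zero (hΔ : W.Δ ≠ 0) {x : K} (hB : exB W x = 0) : exA W x ≠ 0 := by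
  intro hA
  apply hΔ
  rw [← ex_bezout W x, hA, hB, mul_zero, mul_zero, add_zero]

/-- On the curve, `B(x) = (2y + a₁x + a₃)²`. -/
lemma exB_eq_sq {x y : K} (h : W.toAffine.Equation x y) :
    exB W x = (y - W.toAffine.negY x y) ^ 2 := by
  rw [Affine.equation_iff] at h
  unfold exB
  rw [Affine.negY, WeierstrassCurve.b₂, WeierstrassCurve.b₄, WeierstrassCurve.b₆]
  linear_combination (-4) * h

lemma exB_ne_zero_iff {x y : K} (h : W.toAffine.Equation x y) :
    exB W x ≠ 0 ↔ y ≠ W.toAffine.negY x y := by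
  rw [exB_eq_sq W h, ne_eq, pow_eq_zero_iff two_ne_zero, sub_eq_zero]

/-- The duplication formula: `x(2P) · B(x) = A(x)`. -/
lemma ex_addX_mul_exB [DecidableEq K] {x y : K} (h : W.toAffine.Equation x y)
    (hy : y ≠ W.toAffine.negY x y) :
    W.toAffine.addX x x (W.toAffine.slope x x y y) * exB W x = exA W x := by
  have ht : y - W.toAffine.negY x y ≠ 0 := sub_ne_zero.mpr hy
  rw [exB_eq_sq W h, Affine.slope_of_Y_ne rfl hy, Affine.addX]
  rw [Affine.equation_iff] at h
  set t : K := y - W.toAffine.negY x y with ht_def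
  set n : K := 3 * x ^ 2 + 2 * W.toAffine.a₂ * x + W.toAffine.a₄ - W.toAffine.a₁ * y with hn_def
  have hℓ : n / t * t = n := div_mul_cancel₀ n ht
  have ht' : t = 2 * y + W.a₁ * x + W.a₃ := by
    rw [ht_def, Affine.negY]; ring
  unfold exA
  rw [WeierstrassCurve.b₄, WeierstrassCurve.b₆, WeierstrassCurve.b₈]
  have e : ((n / t) ^ 2 + W.a₁ * (n / t) - W.a₂ - x - x) * t ^ 2
      = n ^ 2 + W.a₁ * n * t - (W.a₂ + 2 * x) * t ^ 2 := by
    linear_combination (n / t * t + n + W.a₁ * t) * hℓ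
  rw [e, ht', hn_def]
  linear_combination (-(W.a₁ ^ 2 + 4 * W.a₂) - 8 * x) * h

/-- The key identity behind the `5`-torsion relation. -/
lemma ex_key_five (x d : K) :
    exPsi3 W (x - d) + d * exB W (x - d) =
      (exPsi3 W x - d * exB W x) - d * (exB W x - exC W x * d + d ^ 3) := by
  unfold exPsi3 exB exC; ring

end Field

section Points

variable {K : Type*} [Field K] [DecidableEq K] (W : WeierstrassCurve K)

open Affine.Point

/-- Doubling a point with `B(x) ≠ 0`. -/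
lemma ex_two_nsmul {x y : K} (h : W.toAffine.Nonsingular x y) (hB : exB W x ≠ 0) :
    ∃ (x' y' : K) (h' : W.toAffine.Nonsingular x' y'),
      (2 : ℕ) • (Point.some x y h) = Point.some x' y' h' ∧ x' * exB W x = exA W x := by
  have hy : y ≠ W.toAffine.negY x y := (exB_ne_zero_iff W h.1).mp hB
  refine ⟨_, _, nonsingular_add h h fun hxy => hy hxy.right, ?_, ex_addX_mul_exB W h.1 hy⟩
  rw [two_nsmul]
  exact add_self_of_Y_ne hy

omit [DecidableEq K] in
/-- If two affine points have the same `x`-coordinate, they are equal or opposite. -/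
lemma ex_eq_or_eq_neg {x y y' : K} (h : W.toAffine.Nonsingular x y)
    (h' : W.toAffine.Nonsingular x y') :
    Point.some x y' h' = Point.some x y h ∨ Point.some x y' h' = -Point.some x y h :=
  X_eq_iff.mp rfl

/-- A root of `ψ₃` is the `x`-coordinate of points of order `3`. -/
theorem ex_three_nsmul_eq_zero (hΔ : W.Δ ≠ 0) {x y : K} (h : W.toAffine.Nonsingular x y)
    (hψ : exPsi3 W x = 0) : (3 : ℕ) • (Point.some x y h) = 0 := by
  have hAB : exA W x = x * exB W x := by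
    have := exPsi3_eq W x; rw [hψ] at this; linear_combination this
  have hB : exB W x ≠ 0 := by
    intro hB
    exact exA_ne_zero_of_exB_eq_zero W hΔ hB (by rw [hAB, hB, mul_zero])
  obtain ⟨x', y', h', h2, hx'⟩ := ex_two_nsmul W h hB
  have hxx : x' = x := mul_right_cancel₀ hB (hx'.trans hAB)
  subst hxx
  rcases ex_eq_or_eq_neg W h h' with h3 | h3
  · exfalso
    rw [h3, two_nsmul] at h2
    exact some_ne_zero h (by simp at h2)
  · rw [show (3 : ℕ) = 2 + 1 from rfl, add_nsmul, one_nsmul, h2, h3, neg_add_cancel]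

/-- A root of `Q` is the `x`-coordinate of points of order `5`. -/
theorem ex_five_nsmul_eq_zero (hΔ : W.Δ ≠ 0) {x y : K} (h : W.toAffine.Nonsingular x y)
    (hQ : exQ W x = 0) : (5 : ℕ) • (Point.some x y h) = 0 := by
  have hB : exB W x ≠ 0 := by
    intro hB
    have hψ : exPsi3 W x = 0 := by
      have : exPsi3 W x ^ 3 = 0 := by
        have := hQ; unfold exQ at this; rw [hB] at this; linear_combination this
      exact pow_eq_zero_iff (three_ne_zero) |>.mp this
    apply exA_ne_zero_of_exB_eq_zero W hΔ hB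
    have := exPsi3_eq W x; rw [hψ, hB] at this; linear_combination this
  obtain ⟨x₁, y₁, h₁, h2, hx₁⟩ := ex_two_nsmul W h hB
  -- `d = x - x₁`
  have hd : (x - x₁) * exB W x = exPsi3 W x := by
    rw [exPsi3_eq]; linear_combination -hx₁
  have hR : exB W x - exC W x * (x - x₁) + (x - x₁) ^ 3 = 0 := by
    have h3 : (exB W x - exC W x * (x - x₁) + (x - x₁) ^ 3) * exB W x ^ 3 = 0 := by
      have := hQ; unfold exQ at this; rw [← hd] at this; linear_combination this
    rcases mul_eq_zero.mp h3 with h4 | h4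
    · exact h4
    · exact absurd (pow_eq_zero_iff (three_ne_zero) |>.mp h4) hB
  have hne : x₁ ≠ x := by
    intro hx
    apply hB
    rw [hx] at hR
    simpa using hR
  have hkey := ex_key_five W x (x - x₁)
  rw [sub_sub_cancel, hd, hR, sub_self, mul_zero, sub_zero] at hkey
  have hA₁ : exA W x₁ = x * exB W x₁ := by
    have := exPsi3_eq W x₁; linear_combination this - hkey
  have hB₁ : exB W x₁ ≠ 0 := by
    intro hB₁
    exact exA_ne_zero_of_exB_eq_zero W hΔ hB₁ (by rw [hA₁, hB₁, mul_zero])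
  obtain ⟨x₂, y₂, h₂, h4, hx₂⟩ := ex_two_nsmul W h₁ hB₁
  have hxx : x₂ = x := mul_right_cancel₀ hB₁ (hx₂.trans hA₁)
  subst hxx
  have h4' : (4 : ℕ) • Point.some x₂ y h = Point.some x₂ y₂ h₂ := by
    rw [show (4 : ℕ) = 2 * 2 from rfl, mul_nsmul, h2, h4]
  rcases ex_eq_or_eq_neg W h h₂ with h5 | h5
  · exfalso
    -- `4P = P`, so `3P = 0`, so `2P = -P`, so `x₁ = x`
    have h3 : (2 : ℕ) • Point.some x₂ y h = -Point.some x₂ y h := by
      have e : (4 : ℕ) • Point.some x₂ y h = (2 : ℕ) • Point.some x₂ y h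
          + Point.some x₂ y h + Point.some x₂ y h := by
        rw [show (4 : ℕ) = 2 + 1 + 1 from rfl, add_nsmul, add_nsmul, one_nsmul]
      rw [h4', h5] at e
      have e' : (2 : ℕ) • Point.some x₂ y h + Point.some x₂ y h = 0 := by
        have := e.symm
        rwa [add_eq_right] at this
      exact eq_neg_of_add_eq_zero_left e'
    rw [h2] at h3
    exact hne (X_eq_iff.mpr (Or.inr h3))
  · rw [show (5 : ℕ) = 4 + 1 from rfl, add_nsmul, one_nsmul, h4', h5, neg_add_cancel]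

end Points

section AlgClosed

open Polynomial

variable {K : Type*} [Field K] [IsAlgClosed K] [CharZero K] (W : WeierstrassCurve K)

/-- Over an algebraically closed field of characteristic `0`, every `x` is the `x`-coordinate of
a point of the curve (nonsingular as soon as `Δ ≠ 0`). -/
lemma ex_exists_nonsingular (hΔ : W.Δ ≠ 0) (x : K) : ∃ y, W.toAffine.Nonsingular x y := by
  obtain ⟨s, hs⟩ := IsAlgClosed.exists_pow_nat_eq (exB W x) (n := 2) two_pos
  refine ⟨(s - W.a₁ * x - W.a₃) / 2, ?_⟩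
  rw [← Affine.equation_iff_nonsingular_of_Δ_ne_zero hΔ, Affine.equation_iff]
  unfold exB at hs
  rw [WeierstrassCurve.b₂, WeierstrassCurve.b₄, WeierstrassCurve.b₆] at hs
  have h2 : (2 : K) ≠ 0 := two_ne_zero
  field_simp
  linear_combination hs

/-- The polynomial whose roots are the `x`-coordinates of the points of order `5`. -/
noncomputable def exQPoly : K[X] :=
  W.Ψ₂Sq ^ 4 - (6 * X ^ 2 + C W.b₂ * X + C W.b₄) * W.Ψ₃ * W.Ψ₂Sq ^ 2 + W.Ψ₃ ^ 3

omit [IsAlgClosed K] in
lemma natDegree_exQPoly : (exQPoly W).natDegree = 12 := by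
  unfold exQPoly
  rw [WeierstrassCurve.Ψ₂Sq, WeierstrassCurve.Ψ₃]
  compute_degree!

omit [IsAlgClosed K] [CharZero K] in
lemma eval_exQPoly (x : K) : (exQPoly W).eval x = exQ W x := by
  unfold exQPoly exQ exB exC exPsi3
  rw [WeierstrassCurve.Ψ₂Sq, WeierstrassCurve.Ψ₃]
  simp only [eval_add, eval_sub, eval_mul, eval_pow, eval_C, eval_X, eval_ofNat]

omit [IsAlgClosed K] [CharZero K] in
lemma eval_Ψ₃_eq (x : K) : W.Ψ₃.eval x = exPsi3 W x := by
  unfold exPsi3
  rw [WeierstrassCurve.Ψ₃]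
  simp only [eval_add, eval_mul, eval_pow, eval_C, eval_X, eval_ofNat]

lemma ex_exists_root_exPsi3 : ∃ x : K, exPsi3 W x = 0 := by
  obtain ⟨x, hx⟩ := IsAlgClosed.exists_root W.Ψ₃
    (degree_ne_of_natDegree_ne (by rw [W.natDegree_Ψ₃ three_ne_zero]; norm_num))
  exact ⟨x, by rw [← eval_Ψ₃_eq]; exact hx⟩

lemma ex_exists_root_exQ : ∃ x : K, exQ W x = 0 := by
  obtain ⟨x, hx⟩ := IsAlgClosed.exists_root (exQPoly W)
    (degree_ne_of_natDegree_ne (by rw [natDegree_exQPoly]; norm_num))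
  exact ⟨x, by rw [← eval_exQPoly]; exact hx⟩

variable [DecidableEq K]

/-- **Existence of a point of order `3`.** -/
theorem exists_three_torsion (hΔ : W.Δ ≠ 0) :
    ∃ P : W.toAffine.Point, P ≠ 0 ∧ (3 : ℕ) • P = 0 := by
  obtain ⟨x, hx⟩ := ex_exists_root_exPsi3 W
  obtain ⟨y, hy⟩ := ex_exists_nonsingular W hΔ x
  exact ⟨Affine.Point.some x y hy, Affine.Point.some_ne_zero hy,
    ex_three_nsmul_eq_zero W hΔ hy hx⟩

/-- **Existence of a point of order `5`.** -/
theorem exists_five_torsion (hΔ : W.Δ ≠ 0) :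
    ∃ P : W.toAffine.Point, P ≠ 0 ∧ (5 : ℕ) • P = 0 := by
  obtain ⟨x, hx⟩ := ex_exists_root_exQ W
  obtain ⟨y, hy⟩ := ex_exists_nonsingular W hΔ x
  exact ⟨Affine.Point.some x y hy, Affine.Point.some_ne_zero hy,
    ex_five_nsmul_eq_zero W hΔ hy hx⟩

/-- The `3`-torsion is nontrivial. -/
theorem nontrivial_torsionBy_three (hΔ : W.Δ ≠ 0) :
    Nontrivial (Submodule.torsionBy ℤ W.toAffine.Point ((3 : ℕ) : ℤ)) := by
  obtain ⟨P, hP0, hP⟩ := exists_three_torsion W hΔ
  refine ⟨⟨⟨P, ?_⟩, 0, fun h => hP0 (congrArg Subtype.val h)⟩⟩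
  rw [Submodule.mem_torsionBy_iff, Nat.cast_smul_eq_nsmul]
  exact hP

/-- The `5`-torsion is nontrivial. -/
theorem nontrivial_torsionBy_five (hΔ : W.Δ ≠ 0) :
    Nontrivial (Submodule.torsionBy ℤ W.toAffine.Point ((5 : ℕ) : ℤ)) := by
  obtain ⟨P, hP0, hP⟩ := exists_five_torsion W hΔ
  refine ⟨⟨⟨P, ?_⟩, 0, fun h => hP0 (congrArg Subtype.val h)⟩⟩
  rw [Submodule.mem_torsionBy_iff, Nat.cast_smul_eq_nsmul]
  exact hP

end AlgClosed

end Fermat.Agent.S51
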