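import Mathlib
import Fermat.Prelude.Def_FLTPrelim_ModularRep
import Fermat.Agent.S51.Exist

/-!
# S51 front end, part (G): Galois glue

From `¬ W.ModRepIsIrreducible n` (`n = 3, 5`) and the cardinality bound `|E[n]| ≤ n²` we extract
a point of order `n` generating a Galois-stable line, and deduce that the `x`-coordinate of the
point of order `3` is rational, resp. that the `x`-coordinates of `P` and `2P` (`P` of order `5`)
have rational sum and product.
-/

set_option autoImplicit false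

open WeierstrassCurve WeierstrassCurve.Affine WeierstrassCurve.Affine.Point

namespace Fermat.Agent.S51

/-- Linear algebra: in a `ZMod p`-vector space with at most `p²` elements every proper nonzero
subspace is a line. -/
lemma gal_line_of_proper {p : ℕ} [Fact p.Prime] {V : Type*} [AddCommGroup V] [Module (ZMod p) V]
    [Finite V] (hcard : Nat.card V ≤ p ^ 2) (N : Submodule (ZMod p) V) (hbot : N ≠ ⊥)
    (htop : N ≠ ⊤) {P : V} (hP : P ∈ N) (hP0 : P ≠ 0) : ∀ Q ∈ N, ∃ k : ZMod p, Q = k • P := by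
  have hp : 1 < p := (Fact.out : p.Prime).one_lt
  have hV : Module.finrank (ZMod p) V ≤ 2 := by
    have h1 : Nat.card V = p ^ Module.finrank (ZMod p) V := by
      have := Module.natCard_eq_pow_finrank (K := ZMod p) (V := V)
      rwa [Nat.card_zmod] at this
    rw [h1] at hcard
    exact (Nat.pow_le_pow_iff_right hp).mp hcard
  have hN2 : Module.finrank (ZMod p) N < Module.finrank (ZMod p) V :=
    Submodule.finrank_lt htop
  have hN0 : 0 < Module.finrank (ZMod p) N := by
    rw [Module.finrank_pos_iff]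
    exact (Submodule.nontrivial_iff_ne_bot).mpr hbot
  have hN1 : Module.finrank (ZMod p) N = 1 := by omega
  intro Q hQ
  have := (finrank_eq_one_iff_of_nonzero' (⟨P, hP⟩ : N)
    (fun h => hP0 (congrArg Subtype.val h))).mp hN1 ⟨Q, hQ⟩
  obtain ⟨c, hc⟩ := this
  exact ⟨c, (congrArg Subtype.val hc).symm⟩

section General

universe r s v

variable {R : Type r} {S : Type s} {K : Type v} [CommRing R] [CommRing S] [Field K]
  [DecidableEq K] {W' : Affine R} [Algebra R S] [Algebra R K] [Algebra S K]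
  [IsScalarTower R S K]

/-- Scalar multiplication by `k : ZMod p` on the torsion module is a natural multiple. -/
lemma gal_zmod_smul_coe {p : ℕ} [NeZero p] (k : ZMod p)
    (P : Submodule.torsionBy ℤ (W'⁄K).Point p) :
    ((k • P : Submodule.torsionBy ℤ (W'⁄K).Point p) : (W'⁄K).Point) =
      k.val • (P : (W'⁄K).Point) := by
  conv_lhs => rw [← ZMod.natCast_zmod_val k]
  rw [Nat.cast_smul_eq_nsmul]
  rfl

/-- From a proper nonzero Galois-stable submodule of the `p`-torsion (of cardinality `≤ p²`) we get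
a nonzero `p`-torsion point generating a Galois-stable line. -/
theorem gal_exists_stable_point {p : ℕ} [Fact p.Prime]
    [Finite (Submodule.torsionBy ℤ (W'⁄K).Point p)]
    (hcard : Nat.card (Submodule.torsionBy ℤ (W'⁄K).Point p) ≤ p ^ 2)
    (hnt : Nontrivial (Submodule.torsionBy ℤ (W'⁄K).Point p))
    (h : ¬ GaloisRepIsIrreducible (K := K) S W' p) :
    ∃ P : (W'⁄K).Point, P ≠ 0 ∧ p • P = 0 ∧
      ∀ σ : K ≃ₐ[S] K, ∃ k : ℕ, σ • P = k • P := by
  have : NeZero p := ⟨(Fact.out : p.Prime).ne_zero⟩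
  unfold GaloisRepIsIrreducible at h
  push Not at h
  obtain ⟨N, hstab, hbot, htop⟩ := h hnt
  obtain ⟨P, hPN, hP0⟩ := (Submodule.ne_bot_iff N).mp hbot
  refine ⟨(P : (W'⁄K).Point), fun h0 => hP0 (Subtype.ext h0), ?_, fun σ => ?_⟩
  · have := P.2
    rw [Submodule.mem_torsionBy_iff, Nat.cast_smul_eq_nsmul] at this
    exact this
  · obtain ⟨k, hk⟩ := gal_line_of_proper hcard N hbot htop hPN hP0 (σ • P) (hstab σ P hPN)
    refine ⟨k.val, ?_⟩
    have := congrArg (Subtype.val) hk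
    rw [gal_zmod_smul_coe] at this
    exact this

/-- The Galois action on an affine point. -/
lemma gal_smul_some (σ : K ≃ₐ[S] K) {x y : K} (h : (W'⁄K).Nonsingular x y) :
    ∃ h' : (W'⁄K).Nonsingular (σ x) (σ y),
      σ • (Point.some x y h : (W'⁄K).Point) = Point.some (σ x) (σ y) h' :=
  ⟨_, Point.map_some (W' := W') σ.toAlgHom h⟩

lemma gal_smul_eq_zero (σ : K ≃ₐ[S] K) {P : (W'⁄K).Point} (h : σ • P = 0) : P = 0 := by
  have := congrArg (fun Q => σ⁻¹ • Q) h
  simpa using this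

/-- If `σ • P = ± Q` for affine points, then `σ` maps the `x`-coordinate of `P` to that of `Q`. -/
lemma gal_X_eq_of_smul_eq (σ : K ≃ₐ[S] K) {x y x' y' : K} (h : (W'⁄K).Nonsingular x y)
    (h' : (W'⁄K).Nonsingular x' y')
    (hσ : σ • (Point.some x y h : (W'⁄K).Point) = Point.some x' y' h' ∨
      σ • (Point.some x y h : (W'⁄K).Point) = -Point.some x' y' h') : σ x = x' := by
  obtain ⟨h₁, e⟩ := gal_smul_some σ h
  rw [e] at hσ
  exact X_eq_iff.mpr hσ

/-- Order `3`: the `x`-coordinate of a point generating a Galois-stable line is Galois-fixed. -/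
theorem gal_fixed_three {x y : K} (h : (W'⁄K).Nonsingular x y)
    (h3 : (3 : ℕ) • (Point.some x y h : (W'⁄K).Point) = 0) (σ : K ≃ₐ[S] K)
    (hσ : ∃ k : ℕ, σ • (Point.some x y h : (W'⁄K).Point) = k • Point.some x y h) :
    σ x = x := by
  obtain ⟨k, hk⟩ := hσ
  set P : (W'⁄K).Point := Point.some x y h with hP
  have hk' : σ • P = (k % 3) • P := by
    rw [hk]
    conv_lhs => rw [← Nat.mod_add_div k 3]
    rw [add_nsmul, mul_nsmul, h3, nsmul_zero, add_zero]
  have hlt : k % 3 < 3 := Nat.mod_lt _ (by norm_num)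
  have h2 : (2 : ℕ) • P = -P := by
    have : (3 : ℕ) • P = (2 : ℕ) • P + P := by
      rw [show (3 : ℕ) = 2 + 1 from rfl, add_nsmul, one_nsmul]
    rw [h3] at this
    exact eq_neg_of_add_eq_zero_left this.symm
  apply gal_X_eq_of_smul_eq σ h h
  interval_cases hr : k % 3
  · exfalso
    rw [zero_nsmul] at hk'
    exact Point.some_ne_zero h (gal_smul_eq_zero σ hk')
  · left; rw [hk', one_nsmul]
  · right; rw [hk', h2]

/-- Order `5`: Galois permutes the `x`-coordinates of `P` and `2P` when `P` generates a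
Galois-stable line. -/
theorem gal_fixed_five {x y x' y' : K} (h : (W'⁄K).Nonsingular x y)
    (h' : (W'⁄K).Nonsingular x' y')
    (h5 : (5 : ℕ) • (Point.some x y h : (W'⁄K).Point) = 0)
    (h2 : (2 : ℕ) • (Point.some x y h : (W'⁄K).Point) = Point.some x' y' h')
    (σ : K ≃ₐ[S] K)
    (hσ : ∃ k : ℕ, σ • (Point.some x y h : (W'⁄K).Point) = k • Point.some x y h) :
    (σ x = x ∧ σ x' = x') ∨ (σ x = x' ∧ σ x' = x) := by
  obtain ⟨k, hk⟩ := hσ
  set P : (W'⁄K).Point := Point.some x y h with hP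
  set Q : (W'⁄K).Point := Point.some x' y' h' with hQ
  have hk' : σ • P = (k % 5) • P := by
    rw [hk]
    conv_lhs => rw [← Nat.mod_add_div k 5]
    rw [add_nsmul, mul_nsmul, h5, nsmul_zero, add_zero]
  have hlt : k % 5 < 5 := Nat.mod_lt _ (by norm_num)
  have hσQ : σ • Q = (2 : ℕ) • (σ • P) := by
    rw [← h2, two_nsmul, two_nsmul, smul_add]
  -- multiples of `P`
  have e3 : (3 : ℕ) • P = -Q := by
    have : (5 : ℕ) • P = (3 : ℕ) • P + (2 : ℕ) • P := by
      rw [← add_nsmul]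
    rw [h5, h2] at this
    exact eq_neg_of_add_eq_zero_left this.symm
  have e4 : (4 : ℕ) • P = -P := by
    have : (5 : ℕ) • P = (4 : ℕ) • P + P := by
      rw [show (5 : ℕ) = 4 + 1 from rfl, add_nsmul, one_nsmul]
    rw [h5] at this
    exact eq_neg_of_add_eq_zero_left this.symm
  have e2Q : (2 : ℕ) • Q = -P := by
    rw [← h2, ← mul_nsmul, e4]
  interval_cases hr : k % 5
  · exfalso
    rw [zero_nsmul] at hk'
    exact Point.some_ne_zero h (gal_smul_eq_zero σ hk')
  · left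
    rw [one_nsmul] at hk'
    refine ⟨gal_X_eq_of_smul_eq σ h h (Or.inl hk'), gal_X_eq_of_smul_eq σ h' h' (Or.inl ?_)⟩
    rw [hσQ, hk', h2]
  · right
    rw [h2] at hk'
    refine ⟨gal_X_eq_of_smul_eq σ h h' (Or.inl hk'), gal_X_eq_of_smul_eq σ h' h (Or.inr ?_)⟩
    rw [hσQ, hk', e2Q]
  · right
    rw [e3] at hk'
    refine ⟨gal_X_eq_of_smul_eq σ h h' (Or.inr hk'), gal_X_eq_of_smul_eq σ h' h (Or.inl ?_)⟩
    rw [hσQ, hk', smul_neg, e2Q, neg_neg]
  · left
    rw [e4] at hk'
    refine ⟨gal_X_eq_of_smul_eq σ h h (Or.inr hk'), gal_X_eq_of_smul_eq σ h' h' (Or.inr ?_)⟩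
    rw [hσQ, hk', smul_neg, h2]

end General

section Rat

/-- Rationality of Galois-fixed elements of `AlgebraicClosure ℚ`. -/
lemma gal_rational_of_fixed (x : AlgebraicClosure ℚ)
    (hx : ∀ σ : AlgebraicClosure ℚ ≃ₐ[ℚ] AlgebraicClosure ℚ, σ x = x) :
    ∃ r : ℚ, x = algebraMap ℚ (AlgebraicClosure ℚ) r := by
  have hclos : IsAlgClosure ℚ (AlgebraicClosure ℚ) := AlgebraicClosure.instIsAlgClosure ℚ
  have hgal : IsGalois ℚ (AlgebraicClosure ℚ) := inferInstance
  obtain ⟨r, hr⟩ := (InfiniteGalois.mem_range_algebraMap_iff_fixed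
    (k := ℚ) (K := AlgebraicClosure ℚ) x).mpr hx
  exact ⟨r, hr.symm⟩

variable (W : WeierstrassCurve ℤ)

lemma gal_Δ_ne_zero (hΔ : W.Δ ≠ 0) :
    ((W.map (Int.castRingHom ℚ)).baseChange (AlgebraicClosure ℚ)).Δ ≠ 0 := by
  rw [WeierstrassCurve.baseChange, WeierstrassCurve.map_Δ, WeierstrassCurve.map_Δ]
  simpa using hΔ

/-- **Reducible mod `3` representation**: there is a point of order `3` with rational
`x`-coordinate. -/
theorem stable_three (hΔ : W.Δ ≠ 0)
    [Finite (Submodule.torsionBy ℤ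
      ((W.map (Int.castRingHom ℚ))⁄(AlgebraicClosure ℚ)).Point ((3 : ℕ) : ℤ))]
    (hcard : Nat.card (Submodule.torsionBy ℤ
      ((W.map (Int.castRingHom ℚ))⁄(AlgebraicClosure ℚ)).Point ((3 : ℕ) : ℤ)) ≤ 9)
    (h : ¬ W.ModRepIsIrreducible 3) :
    ∃ (x y : AlgebraicClosure ℚ)
      (hxy : ((W.map (Int.castRingHom ℚ))⁄(AlgebraicClosure ℚ)).Nonsingular x y) (r : ℚ),
      (3 : ℕ) • (Point.some x y hxy) = 0 ∧ x = algebraMap ℚ (AlgebraicClosure ℚ) r := by
  have : Fact (Nat.Prime 3) := ⟨Nat.prime_three⟩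
  obtain ⟨P, hP0, hP3, hσ⟩ := gal_exists_stable_point (S := ℚ) (p := 3) (by simpa using hcard)
    (nontrivial_torsionBy_three _ (gal_Δ_ne_zero W hΔ)) h
  match P, hP0, hP3, hσ with
  | .zero, hP0, _, _ => exact absurd rfl hP0
  | .some x y hxy, _, hP3, hσ =>
    obtain ⟨r, hr⟩ := gal_rational_of_fixed x (fun σ => gal_fixed_three hxy hP3 σ (hσ σ))
    exact ⟨x, y, hxy, r, hP3, hr⟩

/-- **Reducible mod `5` representation**: there is a point `P` of order `5` such that the
`x`-coordinates of `P` and `2P` have rational sum and product. -/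
theorem stable_five (hΔ : W.Δ ≠ 0)
    [Finite (Submodule.torsionBy ℤ
      ((W.map (Int.castRingHom ℚ))⁄(AlgebraicClosure ℚ)).Point ((5 : ℕ) : ℤ))]
    (hcard : Nat.card (Submodule.torsionBy ℤ
      ((W.map (Int.castRingHom ℚ))⁄(AlgebraicClosure ℚ)).Point ((5 : ℕ) : ℤ)) ≤ 25)
    (h : ¬ W.ModRepIsIrreducible 5) :
    ∃ (x y x' y' : AlgebraicClosure ℚ)
      (hxy : ((W.map (Int.castRingHom ℚ))⁄(AlgebraicClosure ℚ)).Nonsingular x y)
      (hxy' : ((W.map (Int.castRingHom ℚ))⁄(AlgebraicClosure ℚ)).Nonsingular x' y')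
      (e₁ e₂ : ℚ),
      (5 : ℕ) • (Point.some x y hxy) = 0 ∧
      (2 : ℕ) • (Point.some x y hxy) = Point.some x' y' hxy' ∧
      x + x' = algebraMap ℚ (AlgebraicClosure ℚ) e₁ ∧
      x * x' = algebraMap ℚ (AlgebraicClosure ℚ) e₂ := by
  have : Fact (Nat.Prime 5) := ⟨Nat.prime_five⟩
  obtain ⟨P, hP0, hP5, hσ⟩ := gal_exists_stable_point (S := ℚ) (p := 5) (by simpa using hcard)
    (nontrivial_torsionBy_five _ (gal_Δ_ne_zero W hΔ)) h
  match P, hP0, hP5, hσ with
  | .zero, hP0, _, _ => exact absurd rfl hP0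
  | .some x y hxy, hP0, hP5, hσ =>
    -- `2P` is an affine point
    have h2ne : (2 : ℕ) • (Point.some x y hxy :
        ((W.map (Int.castRingHom ℚ))⁄(AlgebraicClosure ℚ)).Point) ≠ 0 := by
      intro h2
      apply hP0
      have : (5 : ℕ) • (Point.some x y hxy :
          ((W.map (Int.castRingHom ℚ))⁄(AlgebraicClosure ℚ)).Point)
          = (2 : ℕ) • ((2 : ℕ) • Point.some x y hxy) + Point.some x y hxy := by
        rw [← mul_nsmul, show (5 : ℕ) = 2 * 2 + 1 from rfl, add_nsmul, one_nsmul]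
      rw [hP5, h2, nsmul_zero, zero_add] at this
      exact this.symm
    match hQ : (2 : ℕ) • (Point.some x y hxy :
        ((W.map (Int.castRingHom ℚ))⁄(AlgebraicClosure ℚ)).Point), h2ne with
    | .zero, h2ne => exact absurd rfl h2ne
    | .some x' y' hxy', _ =>
      have key := fun σ => gal_fixed_five hxy hxy' hP5 hQ σ (hσ σ)
      obtain ⟨e₁, he₁⟩ := gal_rational_of_fixed (x + x') (fun σ => by
        rcases key σ with ⟨h1, h2⟩ | ⟨h1, h2⟩
        · rw [map_add, h1, h2]
        · rw [map_add, h1, h2, add_comm])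
      obtain ⟨e₂, he₂⟩ := gal_rational_of_fixed (x * x') (fun σ => by
        rcases key σ with ⟨h1, h2⟩ | ⟨h1, h2⟩
        · rw [map_mul, h1, h2]
        · rw [map_mul, h1, h2, mul_comm])
      exact ⟨x, y, x', y', hxy, hxy', e₁, e₂, hP5, hQ, he₁, he₂⟩

end Rat

end Fermat.Agent.S51
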