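import Mathlib

/-!
# S51 front end, package (R): torsion relations

For a Weierstrass curve `W` over a field `K`, with
`B(x) = 4x³ + b₂x² + 2b₄x + b₆`, `A(x) = x⁴ - b₄x² - 2b₆x - b₈`,
`ψ₃(x) = 3x⁴ + b₂x³ + 3b₄x² + 3b₆x + b₈ = x B(x) - A(x)`:

* `two_nsmul_some`: doubling formula `x(2P) · B(x) = A(x)`.
* `three_torsion_rel`: `3 • P = 0` implies `ψ₃(x) = 0` and `B(x) ≠ 0`.
* `five_torsion_rel`: `5 • P = 0` implies the two relations between `x(P)` and `x(2P)`.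
-/

namespace Fermat.Agent.S51

open WeierstrassCurve WeierstrassCurve.Affine WeierstrassCurve.Affine.Point

variable {K : Type*} [Field K] {W : WeierstrassCurve.Affine K}

/-- On the curve, `B(x) = (y - negY x y)²`. -/
lemma polyB_eq_sq {x y : K} (h : W.Equation x y) :
    4 * x ^ 3 + W.b₂ * x ^ 2 + 2 * W.b₄ * x + W.b₆ = (y - W.negY x y) ^ 2 := by
  rw [equation_iff] at h
  simp only [negY, WeierstrassCurve.b₂, WeierstrassCurve.b₄, WeierstrassCurve.b₆]
  linear_combination (-4 : K) * h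

variable [DecidableEq K]

/-- `2 • P = 0` iff `B(x(P)) = 0`. -/
lemma two_nsmul_eq_zero_iff {x y : K} (h : W.Nonsingular x y) :
    2 • Point.some x y h = 0 ↔ 4 * x ^ 3 + W.b₂ * x ^ 2 + 2 * W.b₄ * x + W.b₆ = 0 := by
  rw [polyB_eq_sq h.1, two_nsmul, sq_eq_zero_iff, sub_eq_zero]
  constructor
  · intro h2
    by_contra hy
    rw [add_self_of_Y_ne hy] at h2
    exact some_ne_zero _ h2
  · intro hy
    exact add_self_of_Y_eq hy

/-- Doubling formula: if `B(x) ≠ 0` then `2 • P` is affine with `x(2P) · B(x) = A(x)`. -/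
lemma two_nsmul_some {x y : K} (h : W.Nonsingular x y)
    (hB : 4 * x ^ 3 + W.b₂ * x ^ 2 + 2 * W.b₄ * x + W.b₆ ≠ 0) :
    ∃ (x' y' : K) (h' : W.Nonsingular x' y'), 2 • Point.some x y h = Point.some x' y' h' ∧
      x' * (4 * x ^ 3 + W.b₂ * x ^ 2 + 2 * W.b₄ * x + W.b₆) =
        x ^ 4 - W.b₄ * x ^ 2 - 2 * W.b₆ * x - W.b₈ := by
  have hsq := polyB_eq_sq h.1
  have hy : y ≠ W.negY x y := by
    intro hy
    apply hB
    rw [hsq, sq_eq_zero_iff, sub_eq_zero]
    exact hy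
  have hD : y - W.negY x y ≠ 0 := sub_ne_zero.mpr hy
  refine ⟨_, _, nonsingular_add h h fun hxy => hy hxy.right, ?_, ?_⟩
  · rw [two_nsmul, add_self_of_Y_ne hy]
  · rw [hsq, slope_of_Y_ne rfl hy]
    have heq := h.1
    rw [equation_iff] at heq
    have hDdef : y - W.negY x y = 2 * y + W.a₁ * x + W.a₃ := by
      simp only [negY]; ring
    generalize y - W.negY x y = D at hD hDdef
    simp only [addX]
    have key : ((3 * x ^ 2 + 2 * W.a₂ * x + W.a₄ - W.a₁ * y) / D) ^ 2 +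
        W.a₁ * ((3 * x ^ 2 + 2 * W.a₂ * x + W.a₄ - W.a₁ * y) / D) - W.a₂ - x - x =
        ((3 * x ^ 2 + 2 * W.a₂ * x + W.a₄ - W.a₁ * y) ^ 2 +
          W.a₁ * (3 * x ^ 2 + 2 * W.a₂ * x + W.a₄ - W.a₁ * y) * D - (W.a₂ + 2 * x) * D ^ 2) /
          D ^ 2 := by
      field_simp
      ring
    rw [key, div_mul_cancel₀ _ (pow_ne_zero 2 hD), hDdef]
    simp only [WeierstrassCurve.b₄, WeierstrassCurve.b₆, WeierstrassCurve.b₈]
    linear_combination (-(W.a₁ ^ 2 + 4 * W.a₂ + 8 * x)) * heq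

/-- A point killed by both `3` and `5` is zero. -/
lemma eq_zero_of_three_of_five {P : W.Point} (h3 : 3 • P = 0) (h5 : 5 • P = 0) : P = 0 := by
  have h6 : 6 • P = 0 := by
    rw [show 6 = 2 * 3 from rfl, mul_smul, h3, smul_zero]
  have : 6 • P = 5 • P + P := by
    rw [show 6 = 5 + 1 from rfl, add_smul, one_smul]
  rw [h6, h5, zero_add] at this
  exact this.symm

/-- A point killed by both `2` and `3` is zero. -/
lemma eq_zero_of_two_of_three {P : W.Point} (h2 : 2 • P = 0) (h3 : 3 • P = 0) : P = 0 := by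
  have : 3 • P = 2 • P + P := by
    rw [show 3 = 2 + 1 from rfl, add_smul, one_smul]
  rw [h3, h2, zero_add] at this
  exact this.symm

/-- A point killed by both `2` and `5` is zero. -/
lemma eq_zero_of_two_of_five {P : W.Point} (h2 : 2 • P = 0) (h5 : 5 • P = 0) : P = 0 := by
  have h4 : 4 • P = 0 := by
    rw [show 4 = 2 * 2 from rfl, mul_smul, h2, smul_zero]
  have : 5 • P = 4 • P + P := by
    rw [show 5 = 4 + 1 from rfl, add_smul, one_smul]
  rw [h5, h4, zero_add] at this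
  exact this.symm

/-- **(R3)** A nonzero `3`-torsion point has `ψ₃(x) = 0` and `B(x) ≠ 0`. -/
theorem three_torsion_rel {x y : K} (h : W.Nonsingular x y)
    (h3 : 3 • Point.some x y h = 0) :
    3 * x ^ 4 + W.b₂ * x ^ 3 + 3 * W.b₄ * x ^ 2 + 3 * W.b₆ * x + W.b₈ = 0 ∧
      4 * x ^ 3 + W.b₂ * x ^ 2 + 2 * W.b₄ * x + W.b₆ ≠ 0 := by
  have hB : 4 * x ^ 3 + W.b₂ * x ^ 2 + 2 * W.b₄ * x + W.b₆ ≠ 0 := by
    intro hB
    exact some_ne_zero h (eq_zero_of_two_of_three ((two_nsmul_eq_zero_iff h).mpr hB) h3)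
  refine ⟨?_, hB⟩
  obtain ⟨x', y', h', h2, hx'⟩ := two_nsmul_some h hB
  have hneg : 2 • Point.some x y h = -Point.some x y h := by
    have : 3 • Point.some x y h = 2 • Point.some x y h + Point.some x y h := by
      rw [show 3 = 2 + 1 from rfl, add_smul, one_smul]
    rw [h3] at this
    exact eq_neg_of_add_eq_zero_left this.symm
  have hxx : x' = x := by
    rw [h2, neg_some] at hneg
    exact (Point.some.inj hneg).1
  rw [hxx] at hx'
  linear_combination hx'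

/-- **(R5)** A nonzero `5`-torsion point `P`: with `x = x(P)`, `x' = x(2P)` we have
`A(x) = x' B(x)`, `A(x') = x B(x')`, `x ≠ x'`, `B(x) ≠ 0`, `B(x') ≠ 0`. -/
theorem five_torsion_rel {x y : K} (h : W.Nonsingular x y)
    (h5 : 5 • Point.some x y h = 0) :
    ∃ (x' y' : K) (h' : W.Nonsingular x' y'), 2 • Point.some x y h = Point.some x' y' h' ∧
      x ^ 4 - W.b₄ * x ^ 2 - 2 * W.b₆ * x - W.b₈ =
        x' * (4 * x ^ 3 + W.b₂ * x ^ 2 + 2 * W.b₄ * x + W.b₆) ∧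
      x' ^ 4 - W.b₄ * x' ^ 2 - 2 * W.b₆ * x' - W.b₈ =
        x * (4 * x' ^ 3 + W.b₂ * x' ^ 2 + 2 * W.b₄ * x' + W.b₆) ∧
      x ≠ x' ∧
      4 * x ^ 3 + W.b₂ * x ^ 2 + 2 * W.b₄ * x + W.b₆ ≠ 0 ∧
      4 * x' ^ 3 + W.b₂ * x' ^ 2 + 2 * W.b₄ * x' + W.b₆ ≠ 0 := by
  have hB : 4 * x ^ 3 + W.b₂ * x ^ 2 + 2 * W.b₄ * x + W.b₆ ≠ 0 := by
    intro hB
    exact some_ne_zero h (eq_zero_of_two_of_five ((two_nsmul_eq_zero_iff h).mpr hB) h5)
  obtain ⟨x', y', h', h2, hx'⟩ := two_nsmul_some h hB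
  have h5' : 5 • Point.some x' y' h' = 0 := by
    rw [← h2, smul_comm, h5, smul_zero]
  have hB' : 4 * x' ^ 3 + W.b₂ * x' ^ 2 + 2 * W.b₄ * x' + W.b₆ ≠ 0 := by
    intro hB'
    exact some_ne_zero h' (eq_zero_of_two_of_five ((two_nsmul_eq_zero_iff h').mpr hB') h5')
  obtain ⟨x'', y'', h'', h4, hx''⟩ := two_nsmul_some h' hB'
  have hneg : Point.some x'' y'' h'' = -Point.some x y h := by
    have : 5 • Point.some x y h = 2 • (2 • Point.some x y h) + Point.some x y h := by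
      rw [← mul_smul, show 5 = 2 * 2 + 1 from rfl, add_smul, one_smul]
    rw [h5, h2, h4] at this
    exact eq_neg_of_add_eq_zero_left this.symm
  have hxx : x'' = x := by
    rw [neg_some] at hneg
    exact (Point.some.inj hneg).1
  rw [hxx] at hx''
  refine ⟨x', y', h', h2, hx'.symm, hx''.symm, ?_, hB, hB'⟩
  intro hx
  have h3 : 3 • Point.some x y h = 0 ∨ Point.some x y h = 0 := by
    rcases (X_eq_iff (h₁ := h) (h₂ := h')).mp hx with heq | heq
    · right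
      have : 2 • Point.some x y h = Point.some x y h + Point.some x y h := two_nsmul _
      rw [h2, ← heq] at this
      exact left_eq_add.mp this
    · left
      rw [show 3 = 2 + 1 from rfl, add_smul, one_smul, h2, heq, add_neg_cancel]
  rcases h3 with h3 | h0
  · exact some_ne_zero h (eq_zero_of_three_of_five h3 h5)
  · exact some_ne_zero h h0

/-- For a nonzero `5`-torsion point, `ψ₃(x) ≠ 0`. -/
theorem psi3_ne_zero_of_five_torsion {x y : K} (h : W.Nonsingular x y)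
    (h5 : 5 • Point.some x y h = 0) :
    3 * x ^ 4 + W.b₂ * x ^ 3 + 3 * W.b₄ * x ^ 2 + 3 * W.b₆ * x + W.b₈ ≠ 0 := by
  obtain ⟨x', y', h', -, hA, -, hne, hB, -⟩ := five_torsion_rel h h5
  have : 3 * x ^ 4 + W.b₂ * x ^ 3 + 3 * W.b₄ * x ^ 2 + 3 * W.b₆ * x + W.b₈ =
      (x - x') * (4 * x ^ 3 + W.b₂ * x ^ 2 + 2 * W.b₄ * x + W.b₆) := by
    linear_combination -hA
  rw [this]
  exact mul_ne_zero (sub_ne_zero.mpr hne) hB

/-- **(R35)** The `x`-coordinates of a nonzero `3`-torsion point and a nonzero `5`-torsion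
point are distinct. -/
theorem x_ne_of_three_of_five {x₃ y₃ x₅ y₅ : K} (h₃ : W.Nonsingular x₃ y₃)
    (h₅ : W.Nonsingular x₅ y₅) (h3 : 3 • Point.some x₃ y₃ h₃ = 0)
    (h5 : 5 • Point.some x₅ y₅ h₅ = 0) : x₃ ≠ x₅ := by
  intro hx
  have h53 : 5 • Point.some x₃ y₃ h₃ = 0 := by
    rcases (X_eq_iff (h₁ := h₃) (h₂ := h₅)).mp hx with heq | heq
    · rw [heq, h5]
    · rw [heq, smul_neg, h5, _root_.neg_zero]
  exact some_ne_zero h₃ (eq_zero_of_three_of_five h3 h53)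

/-- **(R35')** The `x`-coordinate of a nonzero `3`-torsion point differs from the
`x`-coordinate of the double of a nonzero `5`-torsion point. -/
theorem x_ne_of_three_of_two_nsmul_five {x₃ y₃ x₅ y₅ x₅' y₅' : K} (h₃ : W.Nonsingular x₃ y₃)
    (h₅ : W.Nonsingular x₅ y₅) (h₅' : W.Nonsingular x₅' y₅')
    (h3 : 3 • Point.some x₃ y₃ h₃ = 0) (h5 : 5 • Point.some x₅ y₅ h₅ = 0)
    (h2 : 2 • Point.some x₅ y₅ h₅ = Point.some x₅' y₅' h₅') : x₃ ≠ x₅' := by
  refine x_ne_of_three_of_five h₃ h₅' h3 ?_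
  rw [← h2, smul_comm, h5, smul_zero]

end Fermat.Agent.S51
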