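import Mathlib
import Fermat.Agent.S51.TorsionRel

/-!
# S51 front end, package (C): cardinality bounds for `E[3]` and `E[5]`

For a Weierstrass curve `W` over a field `K`:

* `card_torsion_three_le`: if `(3 : K) ≠ 0` then `E[3]` is finite with at most `9` elements.
* `card_torsion_five_le`: if `(5 : K) ≠ 0` then `E[5]` is finite with at most `25` elements.

Both follow from the general counting lemma `finite_and_ncard_le_of_eval_eq_zero`: a set of
points all of whose affine members have `x`-coordinate a root of a fixed nonzero polynomial `p`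
is finite with at most `2 * deg p + 1` elements.
-/

namespace Fermat.Agent.S51

open WeierstrassCurve WeierstrassCurve.Affine WeierstrassCurve.Affine.Point Polynomial

variable {K : Type*} [Field K] {W : WeierstrassCurve.Affine K}

/-- The coordinates of a point, `none` for the point at infinity. -/
def cardPair : W.Point → Option (K × K)
  | .zero => none
  | .some x y _ => some (x, y)

lemma cardPair_injective : Function.Injective (cardPair (W := W)) := by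
  rintro (_ | ⟨x, y, h⟩) (_ | ⟨x', y', h'⟩) hPQ
  · rfl
  · simp [cardPair] at hPQ
  · simp [cardPair] at hPQ
  · simp only [cardPair, Option.some.injEq, Prod.mk.injEq] at hPQ
    obtain ⟨rfl, rfl⟩ := hPQ
    rfl

variable (W) in
/-- The Weierstrass equation as a quadratic polynomial in `y`, for fixed `x`. -/
noncomputable def cardQuad (x : K) : K[X] :=
  X ^ 2 + C (W.a₁ * x + W.a₃) * X - C (x ^ 3 + W.a₂ * x ^ 2 + W.a₄ * x + W.a₆)

lemma cardQuad_monic (x : K) : (cardQuad W x).Monic := by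
  unfold cardQuad
  monicity!

lemma natDegree_cardQuad (x : K) : (cardQuad W x).natDegree = 2 := by
  unfold cardQuad
  compute_degree!

lemma eval_cardQuad {x y : K} (h : W.Equation x y) : (cardQuad W x).eval y = 0 := by
  rw [equation_iff] at h
  simp only [cardQuad, eval_sub, eval_add, eval_mul, eval_pow, eval_C, eval_X]
  linear_combination h

variable [DecidableEq K]

lemma card_roots_cardQuad_le (x : K) : (cardQuad W x).roots.toFinset.card ≤ 2 :=
  (Multiset.toFinset_card_le _).trans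
    ((Polynomial.card_roots' _).trans (natDegree_cardQuad x).le)

/-- **Counting lemma.** If the `x`-coordinate of every affine point of `T` is a root of the
nonzero polynomial `p`, then `T` is finite with at most `2 * deg p + 1` elements. -/
theorem finite_and_ncard_le_of_eval_eq_zero (T : Set W.Point) (p : K[X]) (hp : p ≠ 0)
    (hT : ∀ (x y : K) (h : W.Nonsingular x y), Point.some x y h ∈ T → p.eval x = 0) :
    T.Finite ∧ T.ncard ≤ 2 * p.natDegree + 1 := by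
  set S : Finset (K × K) :=
    p.roots.toFinset.biUnion fun x => (cardQuad W x).roots.toFinset.image fun y => (x, y)
    with hS
  have hScard : S.card ≤ 2 * p.natDegree := by
    calc S.card ≤ ∑ x ∈ p.roots.toFinset,
          ((cardQuad W x).roots.toFinset.image fun y => (x, y)).card := Finset.card_biUnion_le
      _ ≤ ∑ _x ∈ p.roots.toFinset, 2 :=
          Finset.sum_le_sum fun x _ => Finset.card_image_le.trans (card_roots_cardQuad_le x)
      _ = 2 * p.roots.toFinset.card := by rw [Finset.sum_const, smul_eq_mul, mul_comm]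
      _ ≤ 2 * p.natDegree :=
          Nat.mul_le_mul_left 2 ((Multiset.toFinset_card_le _).trans (Polynomial.card_roots' _))
  set S' : Finset (Option (K × K)) := insert none (S.image some) with hS'
  have hS'card : S'.card ≤ 2 * p.natDegree + 1 :=
    (Finset.card_insert_le _ _).trans (Nat.succ_le_succ (Finset.card_image_le.trans hScard))
  have hsub : cardPair '' T ⊆ (S' : Set (Option (K × K))) := by
    rintro _ ⟨P, hP, rfl⟩
    rcases P with _ | ⟨x, y, h⟩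
    · simp [cardPair, hS']
    · have hx : p.eval x = 0 := hT x y h hP
      simp only [cardPair, hS', hS, Finset.coe_insert, Finset.coe_image, Finset.coe_biUnion,
        Set.mem_insert_iff, reduceCtorEq, Set.mem_image, Set.mem_iUnion, false_or]
      refine ⟨(x, y), ⟨x, ?_, y, ?_, rfl⟩, rfl⟩
      · simp only [Finset.mem_coe, Multiset.mem_toFinset]
        exact (Polynomial.mem_roots hp).mpr hx
      · simp only [Finset.mem_coe, Multiset.mem_toFinset]
        exact (Polynomial.mem_roots (cardQuad_monic x).ne_zero).mpr (eval_cardQuad h.1)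
  have hfin : (cardPair '' T).Finite := (Finset.finite_toSet S').subset hsub
  refine ⟨hfin.of_finite_image cardPair_injective.injOn, ?_⟩
  calc T.ncard = (cardPair '' T).ncard := (Set.ncard_image_of_injective T cardPair_injective).symm
    _ ≤ (S' : Set (Option (K × K))).ncard := Set.ncard_le_ncard hsub (Finset.finite_toSet S')
    _ = S'.card := Set.ncard_coe_finset S'
    _ ≤ 2 * p.natDegree + 1 := hS'card

lemma mem_torsionBy_natCast_iff {n : ℕ} {P : W.Point} :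
    P ∈ Submodule.torsionBy ℤ W.Point ((n : ℕ) : ℤ) ↔ n • P = 0 := by
  rw [Submodule.mem_torsionBy_iff, natCast_zsmul]

/-- Transfer of the counting lemma to `Submodule.torsionBy`. -/
theorem finite_and_card_torsionBy_le (n : ℕ) (p : K[X]) (hp : p ≠ 0)
    (hT : ∀ (x y : K) (h : W.Nonsingular x y), n • Point.some x y h = 0 → p.eval x = 0) :
    Finite (Submodule.torsionBy ℤ W.Point ((n : ℕ) : ℤ)) ∧
      Nat.card (Submodule.torsionBy ℤ W.Point ((n : ℕ) : ℤ)) ≤ 2 * p.natDegree + 1 := by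
  obtain ⟨hfin, hcard⟩ := finite_and_ncard_le_of_eval_eq_zero
    (Submodule.torsionBy ℤ W.Point ((n : ℕ) : ℤ) : Set W.Point) p hp
    (fun x y h hP => hT x y h (mem_torsionBy_natCast_iff.mp hP))
  refine ⟨hfin.to_subtype, ?_⟩
  have : Nat.card (Submodule.torsionBy ℤ W.Point ((n : ℕ) : ℤ)) =
      (Submodule.torsionBy ℤ W.Point ((n : ℕ) : ℤ) : Set W.Point).ncard :=
    Nat.card_coe_set_eq _
  rw [this]
  exact hcard

omit [DecidableEq K] in
lemma eval_Ψ₃_explicit (x : K) :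
    W.Ψ₃.eval x = 3 * x ^ 4 + W.b₂ * x ^ 3 + 3 * W.b₄ * x ^ 2 + 3 * W.b₆ * x + W.b₈ := by
  rw [WeierstrassCurve.Ψ₃]
  simp only [eval_add, eval_mul, eval_pow, eval_C, eval_X, eval_ofNat]

omit [DecidableEq K] in
lemma eval_Ψ₂Sq_explicit (x : K) :
    W.Ψ₂Sq.eval x = 4 * x ^ 3 + W.b₂ * x ^ 2 + 2 * W.b₄ * x + W.b₆ := by
  rw [WeierstrassCurve.Ψ₂Sq]
  simp only [eval_add, eval_mul, eval_pow, eval_C, eval_X]

omit [DecidableEq K] in
lemma eval_preΨ₄_explicit (x : K) :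
    W.preΨ₄.eval x = 2 * x ^ 6 + W.b₂ * x ^ 5 + 5 * W.b₄ * x ^ 4 + 10 * W.b₆ * x ^ 3 +
      10 * W.b₈ * x ^ 2 + (W.b₂ * W.b₈ - W.b₄ * W.b₆) * x + (W.b₄ * W.b₈ - W.b₆ ^ 2) := by
  rw [WeierstrassCurve.preΨ₄]
  simp only [eval_add, eval_mul, eval_pow, eval_C, eval_X, eval_ofNat]

omit [DecidableEq K] in
lemma preΨ'_five_eq : W.preΨ' 5 = W.preΨ₄ * W.Ψ₂Sq ^ 2 - W.Ψ₃ ^ 3 := by
  have h := W.preΨ'_odd 0
  simpa using h

/-- **(C3)** If `3 ≠ 0` in `K`, then `E[3]` is finite with at most `9` elements. -/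
theorem card_torsion_three_le (h3 : (3 : K) ≠ 0) :
    Finite (Submodule.torsionBy ℤ W.Point ((3 : ℕ) : ℤ)) ∧
      Nat.card (Submodule.torsionBy ℤ W.Point ((3 : ℕ) : ℤ)) ≤ 9 := by
  obtain ⟨hfin, hcard⟩ := finite_and_card_torsionBy_le (W := W) 3 W.Ψ₃ (W.Ψ₃_ne_zero h3)
    (fun x y h hP => by rw [eval_Ψ₃_explicit]; exact (three_torsion_rel h hP).1)
  refine ⟨hfin, hcard.trans ?_⟩
  have := W.natDegree_Ψ₃_le
  omega

omit [DecidableEq K] in
/-- The polynomial identity behind the `5`-torsion bound: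
`B⁴ (A(A/B) - x B(A/B)) = - ψ₃ ψ₅`. -/
lemma five_torsion_poly_identity (b2 b4 b6 b8 x : K) (hb : 4 * b8 = b2 * b6 - b4 ^ 2) :
    (x ^ 4 - b4 * x ^ 2 - 2 * b6 * x - b8) ^ 4
      - b4 * (x ^ 4 - b4 * x ^ 2 - 2 * b6 * x - b8) ^ 2 * (4 * x ^ 3 + b2 * x ^ 2 + 2 * b4 * x + b6) ^ 2
      - 2 * b6 * (x ^ 4 - b4 * x ^ 2 - 2 * b6 * x - b8) * (4 * x ^ 3 + b2 * x ^ 2 + 2 * b4 * x + b6) ^ 3
      - b8 * (4 * x ^ 3 + b2 * x ^ 2 + 2 * b4 * x + b6) ^ 4
      - x * (4 * x ^ 3 + b2 * x ^ 2 + 2 * b4 * x + b6) *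
        (4 * (x ^ 4 - b4 * x ^ 2 - 2 * b6 * x - b8) ^ 3
          + b2 * (x ^ 4 - b4 * x ^ 2 - 2 * b6 * x - b8) ^ 2 * (4 * x ^ 3 + b2 * x ^ 2 + 2 * b4 * x + b6)
          + 2 * b4 * (x ^ 4 - b4 * x ^ 2 - 2 * b6 * x - b8) * (4 * x ^ 3 + b2 * x ^ 2 + 2 * b4 * x + b6) ^ 2
          + b6 * (4 * x ^ 3 + b2 * x ^ 2 + 2 * b4 * x + b6) ^ 3)
      = -((3 * x ^ 4 + b2 * x ^ 3 + 3 * b4 * x ^ 2 + 3 * b6 * x + b8) *
          ((2 * x ^ 6 + b2 * x ^ 5 + 5 * b4 * x ^ 4 + 10 * b6 * x ^ 3 + 10 * b8 * x ^ 2 +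
              (b2 * b8 - b4 * b6) * x + (b4 * b8 - b6 ^ 2)) *
            (4 * x ^ 3 + b2 * x ^ 2 + 2 * b4 * x + b6) ^ 2
            - (3 * x ^ 4 + b2 * x ^ 3 + 3 * b4 * x ^ 2 + 3 * b6 * x + b8) ^ 3)) := by
  linear_combination (b2^3*x^9 + 7*b2^2*b4*x^8 + 5*b2^2*b6*x^7 + b2^2*b8*x^6 + 11*b2^2*x^10 + 16*b2*b4^2*x^7 + 22*b2*b4*b6*x^6 + 4*b2*b4*b8*x^5 + 52*b2*b4*x^9 + 7*b2*b6^2*x^5 + 2*b2*b6*b8*x^4 + 38*b2*b6*x^8 + 8*b2*b8*x^7 + 40*b2*x^11 + 12*b4^3*x^6 + 24*b4^2*b6*x^5 + 4*b4^2*b8*x^4 + 60*b4^2*x^8 + 15*b4*b6^2*x^4 + 4*b4*b6*b8*x^3 + 84*b4*b6*x^7 + 16*b4*b8*x^6 + 96*b4*x^10 + 3*b6^3*x^3 + b6^2*b8*x^2 + 27*b6^2*x^6 + 8*b6*b8*x^5 + 72*b6*x^9 + 16*b8*x^8 + 48*x^12) * hb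

/-- The `x`-coordinate of a nonzero `5`-torsion point is a root of the fifth division
polynomial `preΨ' 5 = preΨ₄ Ψ₂Sq² - Ψ₃³`. -/
theorem eval_preΨ'_five_eq_zero {x y : K} (h : W.Nonsingular x y)
    (h5 : 5 • Point.some x y h = 0) : (W.preΨ' 5).eval x = 0 := by
  obtain ⟨x', y', h', -, hA, hA', -, hB, -⟩ := five_torsion_rel h h5
  have hψ := psi3_ne_zero_of_five_torsion h h5
  have hid := five_torsion_poly_identity W.b₂ W.b₄ W.b₆ W.b₈ x W.b_relation
  rw [hA] at hid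
  have hzero : (3 * x ^ 4 + W.b₂ * x ^ 3 + 3 * W.b₄ * x ^ 2 + 3 * W.b₆ * x + W.b₈) *
      ((2 * x ^ 6 + W.b₂ * x ^ 5 + 5 * W.b₄ * x ^ 4 + 10 * W.b₆ * x ^ 3 + 10 * W.b₈ * x ^ 2 +
          (W.b₂ * W.b₈ - W.b₄ * W.b₆) * x + (W.b₄ * W.b₈ - W.b₆ ^ 2)) *
        (4 * x ^ 3 + W.b₂ * x ^ 2 + 2 * W.b₄ * x + W.b₆) ^ 2
        - (3 * x ^ 4 + W.b₂ * x ^ 3 + 3 * W.b₄ * x ^ 2 + 3 * W.b₆ * x + W.b₈) ^ 3) = 0 := by
    linear_combination hid - (4 * x ^ 3 + W.b₂ * x ^ 2 + 2 * W.b₄ * x + W.b₆) ^ 4 * hA'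
  rw [preΨ'_five_eq]
  simp only [eval_sub, eval_mul, eval_pow, eval_Ψ₃_explicit, eval_Ψ₂Sq_explicit,
    eval_preΨ₄_explicit]
  exact (mul_eq_zero.mp hzero).resolve_left hψ

/-- **(C5)** If `5 ≠ 0` in `K`, then `E[5]` is finite with at most `25` elements. -/
theorem card_torsion_five_le (h5 : (5 : K) ≠ 0) :
    Finite (Submodule.torsionBy ℤ W.Point ((5 : ℕ) : ℤ)) ∧
      Nat.card (Submodule.torsionBy ℤ W.Point ((5 : ℕ) : ℤ)) ≤ 25 := by
  have h5' : ((5 : ℕ) : K) ≠ 0 := by exact_mod_cast h5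
  obtain ⟨hfin, hcard⟩ := finite_and_card_torsionBy_le (W := W) 5 (W.preΨ' 5)
    (W.preΨ'_ne_zero h5') (fun x y h hP => eval_preΨ'_five_eq_zero h hP)
  refine ⟨hfin, hcard.trans ?_⟩
  have := W.natDegree_preΨ'_le 5
  have h12 : (5 ^ 2 - if Even 5 then 4 else 1) / 2 = 12 := by decide
  rw [h12] at this
  omega

end Fermat.Agent.S51
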