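import Mathlib

/-!
# S51: rational points on `X₀(15)` by 2-descent

The elliptic curve `y² = x (x - 4) (4 x + 9)` (a model of `X₀(15)`, Cremona `15a`) has exactly
eight rational points.  We prove this by an elementary infinite descent on the quartic
`m⁴ - 322 m² n² + n⁴ = w²`.
-/

set_option autoImplicit false

namespace Fermat.Agent.S51

/-! ## Generalities on products that are squares -/

/-- If `X * Y` is a square with `X, Y ≠ 0`, then `X = ± g e²` and `Y = ± g f²` (same sign)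
where `g = gcd X Y`. -/
theorem descent_sq_factor (X Y Q : ℤ) (hX : X ≠ 0) (hY : Y ≠ 0) (hXY : X * Y = Q ^ 2) :
    ∃ e f : ℤ, (X = (Int.gcd X Y : ℤ) * e ^ 2 ∧ Y = (Int.gcd X Y : ℤ) * f ^ 2) ∨
      (X = -((Int.gcd X Y : ℤ) * e ^ 2) ∧ Y = -((Int.gcd X Y : ℤ) * f ^ 2)) := by
  have hg : 0 < Int.gcd X Y := Int.gcd_pos_of_ne_zero_left _ hX
  obtain ⟨X', Y', hcop, hX', hY'⟩ := Int.exists_gcd_one hg
  have hg0 : ((Int.gcd X Y : ℕ) : ℤ) ≠ 0 := by exact_mod_cast hg.ne'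
  generalize ((Int.gcd X Y : ℕ) : ℤ) = g at hX' hY' hg0 ⊢
  have hX'0 : X' ≠ 0 := by
    rintro rfl
    apply hX
    rw [hX']; ring
  have hY'0 : Y' ≠ 0 := by
    rintro rfl
    apply hY
    rw [hY']; ring
  have h1 : g ^ 2 ∣ Q ^ 2 := by
    refine ⟨X' * Y', ?_⟩
    rw [← hXY]
    nth_rewrite 1 [hX']
    nth_rewrite 1 [hY']
    ring
  have h2 : g ∣ Q := (Int.pow_dvd_pow_iff two_ne_zero).mp h1
  obtain ⟨Q', rfl⟩ := h2
  have h3 : X' * Y' = Q' ^ 2 := by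
    have : g ^ 2 * (X' * Y') = g ^ 2 * Q' ^ 2 := by
      calc g ^ 2 * (X' * Y') = (X' * g) * (Y' * g) := by ring
        _ = X * Y := by rw [← hX', ← hY']
        _ = (g * Q') ^ 2 := hXY
        _ = g ^ 2 * Q' ^ 2 := by ring
    exact mul_left_cancel₀ (pow_ne_zero 2 hg0) this
  obtain ⟨e, he⟩ := Int.sq_of_gcd_eq_one hcop h3
  have hcop' : Int.gcd Y' X' = 1 := by rw [Int.gcd_comm]; exact hcop
  obtain ⟨f, hf⟩ := Int.sq_of_gcd_eq_one hcop' (by rw [mul_comm]; exact h3)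
  have he0 : e ≠ 0 := by
    rintro rfl
    rcases he with he | he <;> exact hX'0 (by rw [he]; ring)
  have hf0 : f ≠ 0 := by
    rintro rfl
    rcases hf with hf | hf <;> exact hY'0 (by rw [hf]; ring)
  have hepos : 0 < e ^ 2 := by positivity
  have hfpos : 0 < f ^ 2 := by positivity
  refine ⟨e, f, ?_⟩
  rcases he with he | he <;> rcases hf with hf | hf
  · left
    exact ⟨by rw [hX', he]; ring, by rw [hY', hf]; ring⟩
  · exfalso
    rw [he, hf] at h3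
    nlinarith [sq_nonneg Q', mul_pos hepos hfpos]
  · exfalso
    rw [he, hf] at h3
    nlinarith [sq_nonneg Q', mul_pos hepos hfpos]
  · right
    exact ⟨by rw [hX', he]; ring, by rw [hY', hf]; ring⟩

/-! ## Congruence lemmas -/

theorem descent_zmod3 : ∀ a b : ZMod 3, a ^ 2 + b ^ 2 = 0 → a = 0 ∧ b = 0 := by decide

theorem descent_mod3 (a b : ℤ) (h : (3 : ℤ) ∣ a ^ 2 + b ^ 2) : (3 : ℤ) ∣ a ∧ (3 : ℤ) ∣ b := by
  have h1 : ((a ^ 2 + b ^ 2 : ℤ) : ZMod 3) = 0 :=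
    (ZMod.intCast_zmod_eq_zero_iff_dvd _ 3).mpr (by exact_mod_cast h)
  push_cast at h1
  obtain ⟨h2, h3⟩ := descent_zmod3 _ _ h1
  exact ⟨by exact_mod_cast (ZMod.intCast_zmod_eq_zero_iff_dvd a 3).mp h2,
    by exact_mod_cast (ZMod.intCast_zmod_eq_zero_iff_dvd b 3).mp h3⟩

theorem descent_not_both_even (b c : ℤ) (hbc : IsCoprime b c) : ¬ ((2 : ℤ) ∣ b ∧ (2 : ℤ) ∣ c) := by
  rintro ⟨h1, h2⟩
  have := hbc.isUnit_of_dvd' h1 h2
  rw [Int.isUnit_iff] at this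
  omega

theorem descent_not_both_three (b c : ℤ) (hbc : IsCoprime b c) :
    ¬ ((3 : ℤ) ∣ b ∧ (3 : ℤ) ∣ c) := by
  rintro ⟨h1, h2⟩
  have := hbc.isUnit_of_dvd' h1 h2
  rw [Int.isUnit_iff] at this
  omega

theorem descent_zmod8_even (x : ℤ) : (4 : ZMod 8) * (x : ZMod 8) = 0 ↔ (2 : ℤ) ∣ x := by
  have h1 : (4 : ZMod 8) * (x : ZMod 8) = ((4 * x : ℤ) : ZMod 8) := by push_cast; rfl
  rw [h1, ZMod.intCast_zmod_eq_zero_iff_dvd]
  constructor <;> intro h <;> omega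

theorem descent_zmod4_even (x : ℤ) : (2 : ZMod 4) * (x : ZMod 4) = 0 ↔ (2 : ℤ) ∣ x := by
  have h1 : (2 : ZMod 4) * (x : ZMod 4) = ((2 * x : ℤ) : ZMod 4) := by push_cast; rfl
  rw [h1, ZMod.intCast_zmod_eq_zero_iff_dvd]
  constructor <;> intro h <;> omega

theorem descent_zmod4_g2 : ∀ m n e f : ZMod 4, (2 * m ≠ 0 ∨ 2 * n ≠ 0) →
    m ^ 2 + n ^ 2 = e ^ 2 + f ^ 2 → 18 * m * n = e ^ 2 - f ^ 2 → False := by decide

theorem descent_zmod8_i : ∀ κ b c e : ZMod 8, (κ = 2 ∨ κ = 6) → (4 * b ≠ 0 ∨ 4 * c ≠ 0) →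
    b ^ 2 - c ^ 2 = κ * e ^ 2 → 4 * b ≠ 0 ∧ 4 * c ≠ 0 ∧ 4 * e = 0 := by decide

theorem descent_zmod8_ii : ∀ κ b c f : ZMod 8, (κ = 2 ∨ κ = 6) → 4 * b ≠ 0 → 4 * c ≠ 0 →
    b ^ 2 - 81 * c ^ 2 = κ * f ^ 2 → 4 * f = 0 := by decide

theorem descent_zmod4_iii : ∀ κ c e f : ZMod 4, (κ = 1 ∨ κ = 3) → 2 * c ≠ 0 →
    10 * c ^ 2 = κ * (e ^ 2 - f ^ 2) → False := by decide

theorem descent_sqfree_80 : ∀ g ∈ Nat.divisors 80, ∃ k ∈ ({1, 2, 5, 10} : Finset ℕ),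
    ∃ t ∈ Finset.range 5, g = k * t ^ 2 := by decide

/-- The "even" twists are excluded 2-adically. -/
theorem descent_even_contra (b c e f k₁ : ℤ) (hk : k₁ = 1 ∨ k₁ = -1 ∨ k₁ = 5 ∨ k₁ = -5)
    (hbc : IsCoprime b c) (h1 : b ^ 2 - c ^ 2 = 2 * k₁ * e ^ 2)
    (h2 : b ^ 2 - 81 * c ^ 2 = 2 * k₁ * f ^ 2) : False := by
  have hκ : ((2 * k₁ : ℤ) : ZMod 8) = 2 ∨ ((2 * k₁ : ℤ) : ZMod 8) = 6 := by
    rcases hk with rfl | rfl | rfl | rfl <;> decide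
  have hκ4 : ((k₁ : ℤ) : ZMod 4) = 1 ∨ ((k₁ : ℤ) : ZMod 4) = 3 := by
    rcases hk with rfl | rfl | rfl | rfl <;> decide
  have hpar : (4 : ZMod 8) * (b : ZMod 8) ≠ 0 ∨ (4 : ZMod 8) * (c : ZMod 8) ≠ 0 := by
    by_contra hcon
    push Not at hcon
    exact descent_not_both_even b c hbc
      ⟨(descent_zmod8_even b).mp hcon.1, (descent_zmod8_even c).mp hcon.2⟩
  have h1' : (b : ZMod 8) ^ 2 - (c : ZMod 8) ^ 2 =
      ((2 * k₁ : ℤ) : ZMod 8) * (e : ZMod 8) ^ 2 := by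
    have := congrArg (Int.cast : ℤ → ZMod 8) h1
    push_cast at this ⊢
    exact this
  have h2' : (b : ZMod 8) ^ 2 - 81 * (c : ZMod 8) ^ 2 =
      ((2 * k₁ : ℤ) : ZMod 8) * (f : ZMod 8) ^ 2 := by
    have := congrArg (Int.cast : ℤ → ZMod 8) h2
    push_cast at this ⊢
    exact this
  obtain ⟨hb, hc, he⟩ := descent_zmod8_i _ _ _ _ hκ hpar h1'
  have hf := descent_zmod8_ii _ _ _ _ hκ hb hc h2'
  obtain ⟨e₁, rfl⟩ := (descent_zmod8_even e).mp he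
  obtain ⟨f₁, rfl⟩ := (descent_zmod8_even f).mp hf
  have hcodd : ¬ (2 : ℤ) ∣ c := fun h => hc ((descent_zmod8_even c).mpr h)
  have h3 : 10 * c ^ 2 = k₁ * (e₁ ^ 2 - f₁ ^ 2) := by
    have : 8 * (10 * c ^ 2) = 8 * (k₁ * (e₁ ^ 2 - f₁ ^ 2)) := by linear_combination h1 - h2
    linarith
  have h3' : (10 : ZMod 4) * (c : ZMod 4) ^ 2 =
      (k₁ : ZMod 4) * ((e₁ : ZMod 4) ^ 2 - (f₁ : ZMod 4) ^ 2) := by
    have := congrArg (Int.cast : ℤ → ZMod 4) h3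
    push_cast at this
    exact this
  exact descent_zmod4_iii _ _ _ _ hκ4 (fun h => hcodd ((descent_zmod4_even c).mp h)) h3'

/-! ## The height inequality -/

theorem descent_sq_diff_one (a b : ℤ) (hb : b ≠ 0) (h : a ^ 2 - b ^ 2 = 1) :
    False := by
  have h1 : (a - b) * (a + b) = 1 := by linear_combination h
  rcases Int.eq_one_or_neg_one_of_mul_eq_one' h1 with ⟨h2, h3⟩ | ⟨h2, h3⟩ <;> omega

theorem descent_height (a b c X Y : ℤ) (hab : IsCoprime a b) (ha : a ≠ 0) (hb : b ≠ 0)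
    (hc : a ^ 4 - 322 * a ^ 2 * b ^ 2 + b ^ 4 = c ^ 2) (hXY : IsCoprime X Y)
    (hrel : X ^ 2 * (2 * a * b * c) ^ 2 = Y ^ 2 * (a ^ 4 - b ^ 4) ^ 2) :
    (a * b).natAbs < (X * Y).natAbs := by
  have ha2 : 0 < a ^ 2 := by positivity
  have hb2 : 0 < b ^ 2 := by positivity
  have hab0 : a * b ≠ 0 := mul_ne_zero ha hb
  have hne : a ^ 2 - b ^ 2 ≠ 0 := by
    intro h
    have h' : a ^ 2 = b ^ 2 := by linear_combination h
    have : c ^ 2 = -320 * (b ^ 2) ^ 2 := by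
      rw [← hc, show a ^ 4 = (a ^ 2) ^ 2 by ring, h']; ring
    nlinarith [sq_nonneg c, sq_pos_of_pos hb2]
  have hc0 : c ≠ 0 := by
    rintro rfl
    have h3 : (3 : ℤ) ∣ a ^ 2 + b ^ 2 := by
      have : (3 : ℤ) ∣ (a ^ 2 + b ^ 2) ^ 2 := ⟨108 * a ^ 2 * b ^ 2, by linear_combination hc⟩
      exact Int.prime_three.dvd_of_dvd_pow this
    exact descent_not_both_three a b hab (descent_mod3 a b h3)
  have hcop : IsCoprime (a * b) (a ^ 4 - b ^ 4) := by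
    have h1 : IsCoprime a (a ^ 4 - b ^ 4) := by
      have := (hab.pow_right (n := 4)).neg_right.add_mul_left_right (a ^ 3)
      have h : a ^ 4 - b ^ 4 = -b ^ 4 + a * a ^ 3 := by ring
      rw [h]; exact this
    have h2 : IsCoprime b (a ^ 4 - b ^ 4) := by
      have := (hab.symm.pow_right (n := 4)).add_mul_left_right (-b ^ 3)
      have h : a ^ 4 - b ^ 4 = a ^ 4 + b * -b ^ 3 := by ring
      rw [h]; exact this
    exact h1.mul_left h2
  have hdvd : a * b ∣ Y := by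
    have hsq : (X * (2 * a * b * c)) ^ 2 = (Y * (a ^ 4 - b ^ 4)) ^ 2 := by
      linear_combination hrel
    rcases sq_eq_sq_iff_eq_or_eq_neg.mp hsq with h | h
    · exact hcop.dvd_of_dvd_mul_right ⟨2 * c * X, by linear_combination -h⟩
    · exact hcop.dvd_of_dvd_mul_right ⟨-(2 * c * X), by linear_combination h⟩
  obtain ⟨Y₁, rfl⟩ := hdvd
  have hY₁ : Y₁ ≠ 0 := by
    rintro rfl
    have hX0 : X = 0 := by
      have h0 : X ^ 2 * (2 * a * b * c) ^ 2 = 0 := by rw [hrel]; ring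
      have h1 : (2 * a * b * c) ^ 2 ≠ 0 :=
        pow_ne_zero 2 (mul_ne_zero (mul_ne_zero (mul_ne_zero two_ne_zero ha) hb) hc0)
      rcases mul_eq_zero.mp h0 with h | h
      · exact pow_eq_zero_iff two_ne_zero |>.mp h
      · exact absurd h h1
    rw [hX0, mul_zero] at hXY
    exact not_isCoprime_zero_zero hXY
  have hrel' : 4 * X ^ 2 * c ^ 2 = Y₁ ^ 2 * ((a ^ 2 - b ^ 2) ^ 2 * (a ^ 2 + b ^ 2) ^ 2) := by
    have h1 : (a * b) ^ 2 * (4 * X ^ 2 * c ^ 2) =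
        (a * b) ^ 2 * (Y₁ ^ 2 * ((a ^ 2 - b ^ 2) ^ 2 * (a ^ 2 + b ^ 2) ^ 2)) := by
      linear_combination hrel
    exact mul_left_cancel₀ (pow_ne_zero 2 hab0) h1
  have hY₁2 : 1 ≤ Y₁ ^ 2 := by
    have : 0 < Y₁ ^ 2 := by positivity
    omega
  have hX2 : 4 ≤ X ^ 2 := by
    by_contra hlt
    push Not at hlt
    have hX1 : -1 ≤ X ∧ X ≤ 1 := by constructor <;> nlinarith
    have hX2' : X ^ 2 ≤ 1 := by nlinarith
    -- set up abbreviations
    have hc2 : c ^ 2 = (a ^ 2 + b ^ 2) ^ 2 - 324 * (a ^ 2 * b ^ 2) := by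
      rw [← hc]; ring
    have hpq : 0 < a ^ 2 * b ^ 2 := mul_pos ha2 hb2
    have hS : 0 < (a ^ 2 + b ^ 2) ^ 2 := by positivity
    have hE : 0 ≤ (a ^ 2 - b ^ 2) ^ 2 := sq_nonneg _
    have hD : 0 ≤ (a ^ 2 - b ^ 2) ^ 2 * (a ^ 2 + b ^ 2) ^ 2 := mul_nonneg hE hS.le
    have h1 : (a ^ 2 - b ^ 2) ^ 2 * (a ^ 2 + b ^ 2) ^ 2 ≤ 4 * X ^ 2 * c ^ 2 := by
      rw [hrel']
      nlinarith
    have h2 : 4 * X ^ 2 * c ^ 2 ≤ 4 * c ^ 2 := by
      nlinarith [sq_nonneg c]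
    have h3 : (a ^ 2 - b ^ 2) ^ 2 * (a ^ 2 + b ^ 2) ^ 2 < 4 * (a ^ 2 + b ^ 2) ^ 2 := by
      linarith
    have h4 : (a ^ 2 - b ^ 2) ^ 2 < 4 := lt_of_mul_lt_mul_right h3 hS.le
    have h5 : -1 ≤ a ^ 2 - b ^ 2 ∧ a ^ 2 - b ^ 2 ≤ 1 := by constructor <;> nlinarith
    have h6 : a ^ 2 - b ^ 2 = 1 ∨ a ^ 2 - b ^ 2 = -1 := by omega
    rcases h6 with h6 | h6
    · exact descent_sq_diff_one a b hb h6
    · exact descent_sq_diff_one b a ha (by linear_combination -h6)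
  rw [Int.natAbs_lt_iff_sq_lt]
  have h0 : 0 < (a * b) ^ 2 := by positivity
  have : (X * (a * b * Y₁)) ^ 2 = (X ^ 2 * Y₁ ^ 2) * (a * b) ^ 2 := by ring
  rw [this]
  have h4 : 4 ≤ X ^ 2 * Y₁ ^ 2 := by nlinarith
  nlinarith

/-- Reduce a (possibly non-primitive) solution and compare heights. -/
theorem descent_finish (m n A B C : ℤ) (hmn : IsCoprime m n) (hA : A ≠ 0) (hB : B ≠ 0)
    (hC : A ^ 4 - 322 * A ^ 2 * B ^ 2 + B ^ 4 = C ^ 2)
    (hrel : m ^ 2 * (2 * A * B * C) ^ 2 = n ^ 2 * (A ^ 4 - B ^ 4) ^ 2) :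
    ∃ a b c : ℤ, IsCoprime a b ∧ a ≠ 0 ∧ b ≠ 0 ∧
      a ^ 4 - 322 * a ^ 2 * b ^ 2 + b ^ 4 = c ^ 2 ∧ (a * b).natAbs < (m * n).natAbs := by
  have hg : 0 < Int.gcd A B := Int.gcd_pos_of_ne_zero_left _ hA
  obtain ⟨a, b, hcop, hA', hB'⟩ := Int.exists_gcd_one hg
  have hd0 : ((Int.gcd A B : ℕ) : ℤ) ≠ 0 := by exact_mod_cast hg.ne'
  generalize ((Int.gcd A B : ℕ) : ℤ) = d at hA' hB' hd0
  subst hA' hB'
  have ha : a ≠ 0 := left_ne_zero_of_mul hA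
  have hb : b ≠ 0 := left_ne_zero_of_mul hB
  have h1 : (d ^ 2) ^ 2 ∣ C ^ 2 :=
    ⟨a ^ 4 - 322 * a ^ 2 * b ^ 2 + b ^ 4, by rw [← hC]; ring⟩
  obtain ⟨c, rfl⟩ := (Int.pow_dvd_pow_iff two_ne_zero).mp h1
  have hc : a ^ 4 - 322 * a ^ 2 * b ^ 2 + b ^ 4 = c ^ 2 := by
    have : d ^ 4 * (a ^ 4 - 322 * a ^ 2 * b ^ 2 + b ^ 4) = d ^ 4 * c ^ 2 := by
      linear_combination hC
    exact mul_left_cancel₀ (pow_ne_zero 4 hd0) this
  have hrel' : m ^ 2 * (2 * a * b * c) ^ 2 = n ^ 2 * (a ^ 4 - b ^ 4) ^ 2 := by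
    have : d ^ 8 * (m ^ 2 * (2 * a * b * c) ^ 2) = d ^ 8 * (n ^ 2 * (a ^ 4 - b ^ 4) ^ 2) := by
      linear_combination hrel
    exact mul_left_cancel₀ (pow_ne_zero 8 hd0) this
  have hcop' : IsCoprime a b := Int.isCoprime_iff_gcd_eq_one.mpr hcop
  exact ⟨a, b, c, hcop', ha, hb, hc, descent_height a b c m n hcop' ha hb hc hmn hrel'⟩

/-- Abstract form of the last step of the descent: from `A * A' = B²` and
`C₀² = (A + A')² - 324 B²` we get a new solution `(A, B, A * C₀)`. -/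
theorem descent_finish' (m n A A' B C₀ : ℤ) (hmn : IsCoprime m n) (hB : B ≠ 0)
    (hAA' : A * A' = B ^ 2) (hC₀ : C₀ ^ 2 = (A + A') ^ 2 - 324 * B ^ 2)
    (hrel : m ^ 2 * (4 * B ^ 2 * C₀ ^ 2) = n ^ 2 * ((A - A') ^ 2 * (A + A') ^ 2)) :
    ∃ a b c : ℤ, IsCoprime a b ∧ a ≠ 0 ∧ b ≠ 0 ∧
      a ^ 4 - 322 * a ^ 2 * b ^ 2 + b ^ 4 = c ^ 2 ∧ (a * b).natAbs < (m * n).natAbs := by
  have hA : A ≠ 0 := by
    rintro rfl
    rw [zero_mul] at hAA'
    exact hB (pow_eq_zero_iff two_ne_zero |>.mp hAA'.symm)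
  refine descent_finish m n A B (A * C₀) hmn hA hB ?_ ?_
  · linear_combination (-(2 * A ^ 2 + B ^ 2 + A * A')) * hAA' - A ^ 2 * hC₀
  · linear_combination A ^ 4 * hrel -
      n ^ 2 * (B ^ 2 + A * A') * (2 * A ^ 4 - A ^ 2 * A' ^ 2 - B ^ 4) * hAA'

/-- Same as `descent_finish'`, with the roles of `m` and `n` exchanged in the relation. -/
theorem descent_finish'' (m n A A' B C₀ : ℤ) (hmn : IsCoprime m n) (hB : B ≠ 0)
    (hAA' : A * A' = B ^ 2) (hC₀ : C₀ ^ 2 = (A + A') ^ 2 - 324 * B ^ 2)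
    (hrel : n ^ 2 * (4 * B ^ 2 * C₀ ^ 2) = m ^ 2 * ((A - A') ^ 2 * (A + A') ^ 2)) :
    ∃ a b c : ℤ, IsCoprime a b ∧ a ≠ 0 ∧ b ≠ 0 ∧
      a ^ 4 - 322 * a ^ 2 * b ^ 2 + b ^ 4 = c ^ 2 ∧ (a * b).natAbs < (m * n).natAbs := by
  have := descent_finish' n m A A' B C₀ hmn.symm hB hAA' hC₀ hrel
  rwa [mul_comm n m] at this

/-! ## First step of the descent -/

theorem descent_step1 (m n W : ℤ) (hmn : IsCoprime m n) (hm : m ≠ 0) (hn : n ≠ 0)
    (h : m ^ 4 - 322 * m ^ 2 * n ^ 2 + n ^ 4 = W ^ 2) :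
    ∃ P U : ℤ, P * U = 9 * m * n ∧ P ^ 2 + U ^ 2 = m ^ 2 + n ^ 2 := by
  have hprod : (m ^ 2 + 18 * m * n + n ^ 2) * (m ^ 2 - 18 * m * n + n ^ 2) = W ^ 2 := by
    rw [← h]; ring
  have hn3 : ¬ (3 : ℤ) ∣ m ^ 2 + n ^ 2 := fun h3 =>
    descent_not_both_three m n hmn (descent_mod3 m n h3)
  have hFp3 : ¬ (3 : ℤ) ∣ m ^ 2 + 18 * m * n + n ^ 2 := by
    intro h3
    apply hn3
    have : m ^ 2 + n ^ 2 = (m ^ 2 + 18 * m * n + n ^ 2) - 3 * (6 * m * n) := by ring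
    rw [this]
    exact Int.dvd_sub h3 (dvd_mul_right _ _)
  have hFp0 : m ^ 2 + 18 * m * n + n ^ 2 ≠ 0 := by
    intro h0; apply hFp3; rw [h0]; exact dvd_zero _
  have hFm0 : m ^ 2 - 18 * m * n + n ^ 2 ≠ 0 := by
    intro h0
    apply hn3
    have : m ^ 2 + n ^ 2 = (m ^ 2 - 18 * m * n + n ^ 2) + 3 * (6 * m * n) := by ring
    rw [this, h0, zero_add]
    exact dvd_mul_right _ _
  obtain ⟨e, f, hef⟩ := descent_sq_factor _ _ W hFp0 hFm0 hprod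
  have hgFp : ((Int.gcd (m ^ 2 + 18 * m * n + n ^ 2) (m ^ 2 - 18 * m * n + n ^ 2) : ℕ) : ℤ) ∣
      m ^ 2 + 18 * m * n + n ^ 2 := Int.gcd_dvd_left ..
  have hgFm : ((Int.gcd (m ^ 2 + 18 * m * n + n ^ 2) (m ^ 2 - 18 * m * n + n ^ 2) : ℕ) : ℤ) ∣
      m ^ 2 - 18 * m * n + n ^ 2 := Int.gcd_dvd_right ..
  generalize Int.gcd (m ^ 2 + 18 * m * n + n ^ 2) (m ^ 2 - 18 * m * n + n ^ 2) = g
    at hef hgFp hgFm
  have hcm : IsCoprime (m ^ 2 + 18 * m * n + n ^ 2) m := by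
    have := (hmn.symm.pow_left (m := 2)).add_mul_left_left (m + 18 * n)
    have h' : m ^ 2 + 18 * m * n + n ^ 2 = n ^ 2 + m * (m + 18 * n) := by ring
    rw [h']; exact this
  have hcn : IsCoprime (m ^ 2 + 18 * m * n + n ^ 2) n := by
    have := (hmn.pow_left (m := 2)).add_mul_left_left (n + 18 * m)
    have h' : m ^ 2 + 18 * m * n + n ^ 2 = m ^ 2 + n * (n + 18 * m) := by ring
    rw [h']; exact this
  have hc3 : IsCoprime (m ^ 2 + 18 * m * n + n ^ 2) 3 :=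
    (Int.prime_three.coprime_iff_not_dvd.mpr hFp3).symm
  have hgm : IsCoprime (g : ℤ) m := IsCoprime.of_isCoprime_of_dvd_left hcm hgFp
  have hgn : IsCoprime (g : ℤ) n := IsCoprime.of_isCoprime_of_dvd_left hcn hgFp
  have hg3 : IsCoprime (g : ℤ) 3 := IsCoprime.of_isCoprime_of_dvd_left hc3 hgFp
  have hg36 : (g : ℤ) ∣ 4 * 3 ^ 2 * m * n := by
    have := Int.dvd_sub hgFp hgFm
    have h' : (m ^ 2 + 18 * m * n + n ^ 2) - (m ^ 2 - 18 * m * n + n ^ 2) =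
        4 * 3 ^ 2 * m * n := by ring
    rwa [h'] at this
  have hg4 : (g : ℤ) ∣ 4 :=
    (hg3.pow_right (n := 2)).dvd_of_dvd_mul_right
      (hgm.dvd_of_dvd_mul_right (hgn.dvd_of_dvd_mul_right hg36))
  have hg4' : g ∣ 4 := by exact_mod_cast hg4
  have hgle : g ≤ 4 := Nat.le_of_dvd (by norm_num) hg4'
  have hpos : 0 < m ^ 2 + n ^ 2 := by positivity
  obtain ⟨S, T, hS, hT⟩ : ∃ S T : ℤ, m ^ 2 + 18 * m * n + n ^ 2 = S ^ 2 ∧
      m ^ 2 - 18 * m * n + n ^ 2 = T ^ 2 := by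
    rcases hef with ⟨h1, h2⟩ | ⟨h1, h2⟩
    · interval_cases g
      · exact absurd (by rw [h1]; push_cast; ring) hFp0
      · exact ⟨e, f, by rw [h1]; push_cast; ring, by rw [h2]; push_cast; ring⟩
      · exfalso
        push_cast at h1 h2
        have hsum : m ^ 2 + n ^ 2 = e ^ 2 + f ^ 2 := by linarith
        have hdiff : 18 * m * n = e ^ 2 - f ^ 2 := by linarith
        have hsum' := congrArg (Int.cast : ℤ → ZMod 4) hsum
        have hdiff' := congrArg (Int.cast : ℤ → ZMod 4) hdiff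
        push_cast at hsum' hdiff'
        refine descent_zmod4_g2 _ _ _ _ ?_ hsum' hdiff'
        by_contra hcon
        push Not at hcon
        exact descent_not_both_even m n hmn
          ⟨(descent_zmod4_even m).mp hcon.1, (descent_zmod4_even n).mp hcon.2⟩
      · omega
      · exact ⟨2 * e, 2 * f, by rw [h1]; push_cast; ring, by rw [h2]; push_cast; ring⟩
    · exfalso
      have h3 : (0 : ℤ) ≤ (g : ℤ) * e ^ 2 := mul_nonneg (Int.natCast_nonneg g) (sq_nonneg e)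
      have h4 : (0 : ℤ) ≤ (g : ℤ) * f ^ 2 := mul_nonneg (Int.natCast_nonneg g) (sq_nonneg f)
      linarith
  have hev : Even (S - T) := by
    have h1 : Even ((S - T) * (S + T)) := by
      refine ⟨18 * m * n, ?_⟩
      linear_combination hT - hS
    rcases Int.even_mul.mp h1 with h2 | h2
    · exact h2
    · obtain ⟨k, hk⟩ := h2
      exact ⟨k - T, by omega⟩
  obtain ⟨U, hU⟩ := hev
  refine ⟨T + U, U, ?_, ?_⟩
  · have hS' : S = T + 2 * U := by omega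
    subst hS'
    linarith
  · have hS' : S = T + 2 * U := by omega
    subst hS'
    linarith

/-! ## Second step of the descent -/

theorem descent_step2 (m n P U : ℤ) (hmn : IsCoprime m n) (hm : m ≠ 0) (hn : n ≠ 0)
    (hPU : P * U = 9 * m * n) (hsum : P ^ 2 + U ^ 2 = m ^ 2 + n ^ 2) :
    ∃ b c e f k : ℤ, IsCoprime b c ∧ b ≠ 0 ∧ c ≠ 0 ∧ e ≠ 0 ∧ f ≠ 0 ∧
      (k = 1 ∨ k = 2 ∨ k = 5 ∨ k = 10 ∨ k = -1 ∨ k = -2 ∨ k = -5 ∨ k = -10) ∧
      b ^ 2 - c ^ 2 = k * e ^ 2 ∧ b ^ 2 - 81 * c ^ 2 = k * f ^ 2 ∧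
      m ^ 2 * c ^ 2 * f ^ 2 = n ^ 2 * b ^ 2 * e ^ 2 := by
  have hU : U ≠ 0 := by
    rintro rfl
    have h1 : 9 * m * n = 0 := by rw [← hPU]; ring
    have h2 : m * n = 0 := by linarith
    exact mul_ne_zero hm hn h2
  have key : U ^ 2 * (U ^ 2 - n ^ 2) = m ^ 2 * (U ^ 2 - 81 * n ^ 2) := by
    linear_combination U ^ 2 * hsum - (P * U + 9 * m * n) * hPU
  have hg : 0 < Int.gcd U n := Int.gcd_pos_of_ne_zero_left _ hU
  obtain ⟨b, c, hcop, hU', hn'⟩ := Int.exists_gcd_one hg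
  have hd0 : ((Int.gcd U n : ℕ) : ℤ) ≠ 0 := by exact_mod_cast hg.ne'
  generalize ((Int.gcd U n : ℕ) : ℤ) = d at hU' hn' hd0
  subst hU' hn'
  have hbc : IsCoprime b c := Int.isCoprime_iff_gcd_eq_one.mpr hcop
  have hb : b ≠ 0 := left_ne_zero_of_mul hU
  have hc : c ≠ 0 := left_ne_zero_of_mul hn
  have key' : d ^ 2 * b ^ 2 * (b ^ 2 - c ^ 2) = m ^ 2 * (b ^ 2 - 81 * c ^ 2) := by
    have : d ^ 2 * (d ^ 2 * b ^ 2 * (b ^ 2 - c ^ 2)) =
        d ^ 2 * (m ^ 2 * (b ^ 2 - 81 * c ^ 2)) := by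
      linear_combination key
    exact mul_left_cancel₀ (pow_ne_zero 2 hd0) this
  have hX : b ^ 2 - c ^ 2 ≠ 0 := by
    intro h0
    rw [h0, mul_zero] at key'
    have h1 : b ^ 2 - 81 * c ^ 2 = 0 := by
      rcases mul_eq_zero.mp key'.symm with h | h
      · exact absurd (pow_eq_zero_iff two_ne_zero |>.mp h) hm
      · exact h
    have h2 : 80 * c ^ 2 = 0 := by linear_combination h0 - h1
    have h3 : c ^ 2 = 0 := by linarith
    exact hc (pow_eq_zero_iff two_ne_zero |>.mp h3)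
  have hY : b ^ 2 - 81 * c ^ 2 ≠ 0 := by
    intro h0
    rw [h0, mul_zero] at key'
    have h1 : b ^ 2 - c ^ 2 = 0 := by
      rcases mul_eq_zero.mp key' with h | h
      · exact absurd h (mul_ne_zero (pow_ne_zero 2 hd0) (pow_ne_zero 2 hb))
      · exact h
    exact hX h1
  obtain ⟨Q, hQ⟩ : ∃ Q, (b ^ 2 - c ^ 2) * (b ^ 2 - 81 * c ^ 2) = Q ^ 2 := by
    have h1 : (d * b) ^ 2 ∣ (m * (b ^ 2 - 81 * c ^ 2)) ^ 2 :=
      ⟨(b ^ 2 - c ^ 2) * (b ^ 2 - 81 * c ^ 2),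
        by linear_combination -(b ^ 2 - 81 * c ^ 2) * key'⟩
    obtain ⟨Q, hQ⟩ := (Int.pow_dvd_pow_iff two_ne_zero).mp h1
    refine ⟨Q, ?_⟩
    have h2 : (d * b) ^ 2 * ((b ^ 2 - c ^ 2) * (b ^ 2 - 81 * c ^ 2)) =
        (d * b) ^ 2 * Q ^ 2 := by
      have h3 : (m * (b ^ 2 - 81 * c ^ 2)) ^ 2 = (d * b) ^ 2 * Q ^ 2 := by rw [hQ]; ring
      rw [← h3]
      linear_combination (b ^ 2 - 81 * c ^ 2) * key'
    exact mul_left_cancel₀ (pow_ne_zero 2 (mul_ne_zero hd0 hb)) h2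
  obtain ⟨e₀, f₀, hef⟩ := descent_sq_factor _ _ Q hX hY hQ
  have hgX : ((Int.gcd (b ^ 2 - c ^ 2) (b ^ 2 - 81 * c ^ 2) : ℕ) : ℤ) ∣ b ^ 2 - c ^ 2 :=
    Int.gcd_dvd_left ..
  have hgY : ((Int.gcd (b ^ 2 - c ^ 2) (b ^ 2 - 81 * c ^ 2) : ℕ) : ℤ) ∣ b ^ 2 - 81 * c ^ 2 :=
    Int.gcd_dvd_right ..
  generalize Int.gcd (b ^ 2 - c ^ 2) (b ^ 2 - 81 * c ^ 2) = g at hef hgX hgY
  have hXc : IsCoprime (b ^ 2 - c ^ 2) c := by
    have := (hbc.pow_left (m := 2)).add_mul_left_left (-c)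
    have h' : b ^ 2 - c ^ 2 = b ^ 2 + c * -c := by ring
    rw [h']; exact this
  have hgc : IsCoprime (g : ℤ) c := IsCoprime.of_isCoprime_of_dvd_left hXc hgX
  have hg80 : (g : ℤ) ∣ 80 := by
    have h1 : (g : ℤ) ∣ 80 * c ^ 2 := by
      have := Int.dvd_sub hgX hgY
      have h' : (b ^ 2 - c ^ 2) - (b ^ 2 - 81 * c ^ 2) = 80 * c ^ 2 := by ring
      rwa [h'] at this
    exact (hgc.pow_right (n := 2)).dvd_of_dvd_mul_right h1
  have hg80' : g ∈ Nat.divisors 80 :=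
    Nat.mem_divisors.mpr ⟨by exact_mod_cast hg80, by norm_num⟩
  obtain ⟨k₀, hk₀, t, -, hgkt⟩ := descent_sqfree_80 g hg80'
  subst hgkt
  have hk₀' : k₀ = 1 ∨ k₀ = 2 ∨ k₀ = 5 ∨ k₀ = 10 := by simpa using hk₀
  obtain ⟨k, e, f, hk, hXe, hYf⟩ : ∃ k e f : ℤ,
      (k = 1 ∨ k = 2 ∨ k = 5 ∨ k = 10 ∨ k = -1 ∨ k = -2 ∨ k = -5 ∨ k = -10) ∧
      b ^ 2 - c ^ 2 = k * e ^ 2 ∧ b ^ 2 - 81 * c ^ 2 = k * f ^ 2 := by
    rcases hef with ⟨h1, h2⟩ | ⟨h1, h2⟩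
    · refine ⟨(k₀ : ℤ), (t : ℤ) * e₀, (t : ℤ) * f₀, ?_,
        by rw [h1]; push_cast; ring, by rw [h2]; push_cast; ring⟩
      rcases hk₀' with rfl | rfl | rfl | rfl <;> simp
    · refine ⟨-(k₀ : ℤ), (t : ℤ) * e₀, (t : ℤ) * f₀, ?_,
        by rw [h1]; push_cast; ring, by rw [h2]; push_cast; ring⟩
      rcases hk₀' with rfl | rfl | rfl | rfl <;> simp
  have hk0 : k ≠ 0 := by
    rcases hk with rfl | rfl | rfl | rfl | rfl | rfl | rfl | rfl <;> norm_num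
  have he : e ≠ 0 := by
    rintro rfl
    apply hX; rw [hXe]; ring
  have hf : f ≠ 0 := by
    rintro rfl
    apply hY; rw [hYf]; ring
  refine ⟨b, c, e, f, k, hbc, hb, hc, he, hf, hk, hXe, hYf, ?_⟩
  have h1 : k * (d ^ 2 * b ^ 2 * e ^ 2) = k * (m ^ 2 * f ^ 2) := by
    linear_combination key' - d ^ 2 * b ^ 2 * hXe + m ^ 2 * hYf
  have h2 := mul_left_cancel₀ hk0 h1
  linear_combination (-c ^ 2) * h2

/-! ## The descent -/

theorem descent_main_step (m n W : ℤ) (hmn : IsCoprime m n) (hm : m ≠ 0) (hn : n ≠ 0)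
    (h : m ^ 4 - 322 * m ^ 2 * n ^ 2 + n ^ 4 = W ^ 2) :
    ∃ a b c : ℤ, IsCoprime a b ∧ a ≠ 0 ∧ b ≠ 0 ∧
      a ^ 4 - 322 * a ^ 2 * b ^ 2 + b ^ 4 = c ^ 2 ∧ (a * b).natAbs < (m * n).natAbs := by
  obtain ⟨P, U, hPU, hsum⟩ := descent_step1 m n W hmn hm hn h
  obtain ⟨b, c, e, f, k, hbc, hb, hc, he, hf, hk, h1, h2, hrel⟩ :=
    descent_step2 m n P U hmn hm hn hPU hsum
  have h5 : (5 : ℤ) ≠ 0 := by norm_num
  rcases hk with rfl | rfl | rfl | rfl | rfl | rfl | rfl | rfl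
  · -- k = 1
    exact descent_finish' m n (b + e) (b - e) c (2 * f) hmn hc
      (by linear_combination h1) (by linear_combination -4 * h2)
      (by linear_combination 16 * hrel)
  · -- k = 2
    exact (descent_even_contra b c e f 1 (Or.inl rfl) hbc
      (by linear_combination h1) (by linear_combination h2)).elim
  · -- k = 5
    refine descent_finish' m n (9 * e + 4 * b) (9 * e - 4 * b) f (72 * c) hmn hf ?_ ?_ ?_
    · refine mul_left_cancel₀ h5 ?_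
      linear_combination -81 * h1 + h2
    · refine mul_left_cancel₀ h5 ?_
      linear_combination 324 * h1 - 324 * h2
    · linear_combination 20736 * hrel
  · -- k = 10
    exact (descent_even_contra b c e f 5 (Or.inr (Or.inr (Or.inl rfl))) hbc
      (by linear_combination h1) (by linear_combination h2)).elim
  · -- k = -1
    refine descent_finish'' m n (9 * c + f) (9 * c - f) b (18 * e) hmn hb ?_ ?_ ?_
    · linear_combination -h2
    · linear_combination 324 * h1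
    · linear_combination -1296 * hrel
  · -- k = -2
    exact (descent_even_contra b c e f (-1) (Or.inr (Or.inl rfl)) hbc
      (by linear_combination h1) (by linear_combination h2)).elim
  · -- k = -5
    refine descent_finish'' m n (f + 4 * c) (f - 4 * c) e (8 * b) hmn he ?_ ?_ ?_
    · refine mul_left_cancel₀ h5 ?_
      linear_combination h2 - h1
    · refine mul_left_cancel₀ h5 ?_
      linear_combination 324 * h1 - 4 * h2
    · linear_combination -256 * hrel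
  · -- k = -10
    exact (descent_even_contra b c e f (-5) (Or.inr (Or.inr (Or.inr rfl))) hbc
      (by linear_combination h1) (by linear_combination h2)).elim

theorem quartic_322_aux : ∀ N : ℕ, ∀ m n w : ℤ, IsCoprime m n → m ≠ 0 → n ≠ 0 →
    m ^ 4 - 322 * m ^ 2 * n ^ 2 + n ^ 4 = w ^ 2 → (m * n).natAbs = N → False := by
  intro N
  induction N using Nat.strong_induction_on with
  | _ N ih =>
    intro m n w hmn hm hn h hN
    obtain ⟨a, b, c, hab, ha, hb, hc, hlt⟩ := descent_main_step m n w hmn hm hn h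
    exact ih _ (hN ▸ hlt) a b c hab ha hb hc rfl

/-- The quartic `m⁴ - 322 m² n² + n⁴ = w²` has only the trivial primitive solutions. -/
theorem quartic_322 (m n w : ℤ) (hmn : IsCoprime m n)
    (h : m ^ 4 - 322 * m ^ 2 * n ^ 2 + n ^ 4 = w ^ 2) : m = 0 ∨ n = 0 := by
  by_contra hcon
  push Not at hcon
  exact quartic_322_aux _ m n w hmn hcon.1 hcon.2 h rfl

/-- Rational form: the affine quartic `w² = z⁴ - 322 z² + 1` has only the rational points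
with `z = 0`. -/
theorem quartic_322_rat (z w : ℚ) (h : z ^ 4 - 322 * z ^ 2 + 1 = w ^ 2) : z = 0 := by
  have hden : (z.den : ℚ) ≠ 0 := Nat.cast_ne_zero.mpr z.den_nz
  have hnum : (z.num : ℚ) = z * z.den := (Rat.mul_den_eq_num z).symm
  have hsq : IsSquare (((z.num ^ 4 - 322 * z.num ^ 2 * (z.den : ℤ) ^ 2 + (z.den : ℤ) ^ 4 : ℤ)) : ℚ) := by
    refine ⟨w * (z.den : ℚ) ^ 2, ?_⟩
    push_cast
    rw [hnum]
    linear_combination (z.den : ℚ) ^ 4 * h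
  obtain ⟨W, hW⟩ := Rat.isSquare_intCast_iff.mp hsq
  have hcop : IsCoprime z.num (z.den : ℤ) := by
    rw [Int.isCoprime_iff_nat_coprime]
    simpa using z.reduced
  rcases quartic_322 z.num z.den W hcop (by rw [hW]; ring) with h0 | h0
  · exact Rat.num_eq_zero.mp h0
  · exact absurd (by exact_mod_cast h0) z.den_nz

/-- The rational points of `X₀(15)`, in the model `y² = x (x - 4) (4 x + 9)`: the affine ones
have `x ∈ {0, 4, -9/4, 9, -1}`. -/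
theorem x15_rational_points (x y : ℚ) (h : y ^ 2 = x * (x - 4) * (4 * x + 9)) :
    x = 0 ∨ x = 4 ∨ x = -9/4 ∨ x = 9 ∨ x = -1 := by
  by_cases h4 : x = 4
  · exact Or.inr (Or.inl h4)
  by_cases h9 : x = 9
  · exact Or.inr (Or.inr (Or.inr (Or.inl h9)))
  obtain ⟨t, ht⟩ : ∃ t : ℚ, t = 4 * x - 16 := ⟨_, rfl⟩
  have hx : x = (t + 16) / 4 := by rw [ht]; ring
  have ht0 : t ≠ 0 := by
    intro h0
    apply h4
    rw [hx, h0]; norm_num
  have ht20 : t - 20 ≠ 0 := by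
    intro h0
    apply h9
    have : t = 20 := by linarith
    rw [hx, this]; norm_num
  have hY : (4 * y) ^ 2 = t * (t + 16) * (t + 25) := by
    rw [ht]; linear_combination 16 * h
  have hz2 : ((t + 20) * (4 * y) / (t * (t - 20))) ^ 2 =
      (t + 20) ^ 2 * (t + 16) * (t + 25) / (t * (t - 20) ^ 2) := by
    rw [div_pow, mul_pow, hY]
    field_simp
  have hzw : ((t + 20) * (4 * y) / (t * (t - 20))) ^ 4 -
      322 * ((t + 20) * (4 * y) / (t * (t - 20))) ^ 2 + 1 =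
      ((t - 20) ^ 2 / t - 6480 * t / (t - 20) ^ 2) ^ 2 := by
    have h1 : ((t + 20) * (4 * y) / (t * (t - 20))) ^ 4 =
        (((t + 20) * (4 * y) / (t * (t - 20))) ^ 2) ^ 2 := by ring
    rw [h1, hz2]
    field_simp
    ring
  have hz := quartic_322_rat _ _ hzw
  rw [div_eq_zero_iff] at hz
  rcases hz with hz | hz
  · rcases mul_eq_zero.mp hz with h1 | h1
    · right; right; right; right
      rw [hx]
      have : t = -20 := by linarith
      rw [this]; norm_num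
    · have hy : y = 0 := by
        rcases mul_eq_zero.mp h1 with h2 | h2
        · norm_num at h2
        · exact h2
      rw [hy] at h
      have h2 : x * (x - 4) * (4 * x + 9) = 0 := by rw [← h]; ring
      rcases mul_eq_zero.mp h2 with h3 | h3
      · rcases mul_eq_zero.mp h3 with h5 | h5
        · exact Or.inl h5
        · exact absurd (by linarith) h4
      · right; right; left
        linarith
  · exact absurd hz (mul_ne_zero ht0 ht20)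

end Fermat.Agent.S51
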