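import Fermat.Agent.S51.Final
import Fermat.Agent.S51.Descent
import Fermat.Agent.S51.KeyIdentity

/-!
# S51, back end

Everything after the torsion relations and the Galois rationality: if an integral semistable
Weierstrass curve `W` had, over a field `K` of characteristic `0`,

* a point of order `3` with rational `x`-coordinate `x3`, and
* a point `P` of order `5` such that the `x`-coordinates `x5`, `x5'` of `P`, `2 P` have rational
  sum and product,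

then `(s, v)` would be a rational point of `X₀(15)` (key identity), hence
`s ∈ {-32, -729/32, -729/2, -2}` (descent), which contradicts semistability (`j`-relation and
final arithmetic).
-/

set_option autoImplicit false

namespace Fermat.Agent.S51

/-- From the key identity and the rational points of `X₀(15)` to the four values of `s`. -/
theorem s_mem_of_key (s v : ℚ) (hv : v ≠ 0) (hs : s ≠ 0)
    (h : (v + 1) * s ^ 2 + 5 * v ^ 3 * s - (v - 9) * v ^ 5 = 0) :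
    s = -32 ∨ s = -729/32 ∨ s = -729/2 ∨ s = -2 := by
  have hy : ((2 * (v + 1) * s + 5 * v ^ 3) / v ^ 2) ^ 2 = v * (v - 4) * (4 * v + 9) := by
    rw [div_pow]
    rw [div_eq_iff (pow_ne_zero _ (pow_ne_zero _ hv))]
    linear_combination (4 * (v + 1)) * h
  rcases x15_rational_points v _ hy with h0 | h4 | h94 | h9 | h1
  · exact absurd h0 hv
  · -- `v = 4`: `5 (s + 32)² = 0`
    subst h4
    have : (s + 32) ^ 2 = 0 := by linear_combination h / 5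
    have : s + 32 = 0 := by simpa using this
    left; linarith
  · -- `v = -9/4`: `(32 s + 729)² = 0`
    subst h94
    have : (32 * s + 729) ^ 2 = 0 := by linear_combination (-4096 / 5 : ℚ) * h
    have : 32 * s + 729 = 0 := by simpa using this
    right; left; linarith
  · -- `v = 9`: `s (2 s + 729) = 0`
    subst h9
    have : s * (2 * s + 729) = 0 := by linear_combination h / 5
    rcases mul_eq_zero.mp this with h0 | h0
    · exact absurd h0 hs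
    · right; right; left; linarith
  · -- `v = -1`: `-5 s - 10 = 0`
    subst h1
    right; right; right; linarith

/-- **Back end of S51.**  `b2 b4 b6 b8` are the `b`-invariants of `W` in `K`; `x3` is the
`x`-coordinate of a point of order `3`; `x5`, `x5'` are the `x`-coordinates of `P`, `2 P` for a
point `P` of order `5`; `x3`, `x5 + x5'`, `x5 * x5'` are rational. -/
theorem backend_false {K : Type*} [Field K] [CharZero K] (W : WeierstrassCurve ℤ)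
    (hΔ : W.Δ ≠ 0) (hW : W.IsSemistableModel) (b2 b4 b6 b8 x3 x5 x5' : K)
    (hb2 : b2 = ((W.b₂ : ℤ) : K)) (hb4 : b4 = ((W.b₄ : ℤ) : K))
    (hb6 : b6 = ((W.b₆ : ℤ) : K)) (hb8 : b8 = ((W.b₈ : ℤ) : K))
    (h3 : 3 * x3 ^ 4 + b2 * x3 ^ 3 + 3 * b4 * x3 ^ 2 + 3 * b6 * x3 + b8 = 0)
    (h5 : x5 ^ 4 - b4 * x5 ^ 2 - 2 * b6 * x5 - b8 =
      x5' * (4 * x5 ^ 3 + b2 * x5 ^ 2 + 2 * b4 * x5 + b6))
    (h5' : x5' ^ 4 - b4 * x5' ^ 2 - 2 * b6 * x5' - b8 =
      x5 * (4 * x5' ^ 3 + b2 * x5' ^ 2 + 2 * b4 * x5' + b6))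
    (hne : x5 ≠ x5') (h35 : x3 ≠ x5) (h35' : x3 ≠ x5')
    (hB : 4 * x3 ^ 3 + b2 * x3 ^ 2 + 2 * b4 * x3 + b6 ≠ 0)
    (r3 e1 e2 : ℚ) (hx3 : x3 = (r3 : K)) (he1 : x5 + x5' = (e1 : K))
    (he2 : x5 * x5' = (e2 : K)) : False := by
  have h2 : (2 : K) ≠ 0 := two_ne_zero
  have hb : 4 * b8 = b2 * b6 - b4 ^ 2 := by
    rw [hb2, hb4, hb6, hb8]
    exact_mod_cast congrArg (fun z : ℤ => (z : K)) W.b_relation
  -- the rational numbers `s`, `v`
  set B4 : ℚ := 6 * r3 ^ 2 + (W.b₂ : ℚ) * r3 + (W.b₄ : ℚ) with hB4def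
  set B6 : ℚ := 4 * r3 ^ 3 + (W.b₂ : ℚ) * r3 ^ 2 + 2 * (W.b₄ : ℚ) * r3 + (W.b₆ : ℚ) with hB6def
  set E : ℚ := -(e1 ^ 2 - 4 * e2) with hEdef
  set D : ℚ := r3 ^ 2 - e1 * r3 + e2 with hDdef
  have hB4K : 6 * x3 ^ 2 + b2 * x3 + b4 = (B4 : K) := by
    rw [hB4def, hx3, hb2, hb4]; push_cast; ring
  have hB6K : 4 * x3 ^ 3 + b2 * x3 ^ 2 + 2 * b4 * x3 + b6 = (B6 : K) := by
    rw [hB6def, hx3, hb2, hb4, hb6]; push_cast; ring
  have hEK : -(x5 - x5') ^ 2 = (E : K) := by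
    rw [hEdef]; push_cast; rw [← he1, ← he2]; ring
  have hDK : (x3 - x5) * (x3 - x5') = (D : K) := by
    rw [hDdef]; push_cast; rw [← he1, ← he2, ← hx3]; ring
  have hB6ne : B6 ≠ 0 := by
    intro h0
    apply hB
    rw [hB6K, h0, Rat.cast_zero]
  have hDne : D ≠ 0 := by
    intro h0
    have : (x3 - x5) * (x3 - x5') = 0 := by rw [hDK, h0, Rat.cast_zero]
    rcases mul_eq_zero.mp this with h | h
    · exact h35 (sub_eq_zero.mp h)
    · exact h35' (sub_eq_zero.mp h)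
  have hEne : E ≠ 0 := by
    intro h0
    have : -(x5 - x5') ^ 2 = 0 := by rw [hEK, h0, Rat.cast_zero]
    have : (x5 - x5') ^ 2 = 0 := neg_eq_zero.mp this
    exact hne (sub_eq_zero.mp ((pow_eq_zero_iff (two_ne_zero)).mp this))
  set s : ℚ := B4 ^ 3 / B6 ^ 2 - 27 with hsdef
  set v : ℚ := E / D with hvdef
  have hsK : ((s : ℚ) : K) = (6 * x3 ^ 2 + b2 * x3 + b4) ^ 3 /
      (4 * x3 ^ 3 + b2 * x3 ^ 2 + 2 * b4 * x3 + b6) ^ 2 - 27 := by
    rw [hB4K, hB6K, hsdef]; push_cast; ring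
  have hvK : ((v : ℚ) : K) = -(x5 - x5') ^ 2 / ((x3 - x5) * (x3 - x5')) := by
    rw [hEK, hDK, hvdef]; push_cast; ring
  -- key identity over `ℚ`
  have hkeyK := key_identity h2 b2 b4 b6 b8 x3 x5 x5' hb h3 h5 h5' hne h35 h35' hB
    (s : K) (v : K) hsK hvK
  have hkey : (v + 1) * s ^ 2 + 5 * v ^ 3 * s - (v - 9) * v ^ 5 = 0 := by
    have : (((v + 1) * s ^ 2 + 5 * v ^ 3 * s - (v - 9) * v ^ 5 : ℚ) : K) = ((0 : ℚ) : K) := by
      push_cast
      exact hkeyK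
    exact Rat.cast_injective this
  -- `j`-relation over `ℚ`
  have hjK := j_relation b2 b4 b6 b8 x3 hb h3 hB ((W.c₄ : ℤ) : K) ((W.Δ : ℤ) : K) (s : K)
    (by rw [hb2, hb4, WeierstrassCurve.c₄]; push_cast; ring)
    (by rw [hb2, hb4, hb6, hb8, WeierstrassCurve.Δ]; push_cast; ring) hsK
  have hj : (W.c₄ : ℚ) ^ 3 * s = (W.Δ : ℚ) * (s + 27) * (s + 3) ^ 3 := by
    have : (((W.c₄ : ℚ) ^ 3 * s : ℚ) : K) = (((W.Δ : ℚ) * (s + 27) * (s + 3) ^ 3 : ℚ) : K) := by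
      push_cast
      exact hjK
    exact Rat.cast_injective this
  have hvne : v ≠ 0 := div_ne_zero hEne hDne
  -- `s ≠ 0` because `s * B6² = Δ ≠ 0`
  have hsne : s ≠ 0 := by
    intro h0
    rw [h0] at hj
    have hΔQ : (W.Δ : ℚ) ≠ 0 := by exact_mod_cast hΔ
    have : (W.Δ : ℚ) * (0 + 27) * (0 + 3) ^ 3 = 0 := by rw [← hj]; ring
    apply hΔQ
    have h729 : (W.Δ : ℚ) * 729 = 0 := by linear_combination this
    rcases mul_eq_zero.mp h729 with h | h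
    · exact h
    · norm_num at h
  exact semistable_j_contra W hΔ hW s (s_mem_of_key s v hvne hsne hkey) hj

/-- Variant of `backend_false` with rationality phrased via `algebraMap ℚ K`. -/
theorem backend_false' {K : Type*} [Field K] [CharZero K] [Algebra ℚ K] (W : WeierstrassCurve ℤ)
    (hΔ : W.Δ ≠ 0) (hW : W.IsSemistableModel) (b2 b4 b6 b8 x3 x5 x5' : K)
    (hb2 : b2 = algebraMap ℚ K (W.b₂ : ℚ)) (hb4 : b4 = algebraMap ℚ K (W.b₄ : ℚ))
    (hb6 : b6 = algebraMap ℚ K (W.b₆ : ℚ)) (hb8 : b8 = algebraMap ℚ K (W.b₈ : ℚ))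
    (h3 : 3 * x3 ^ 4 + b2 * x3 ^ 3 + 3 * b4 * x3 ^ 2 + 3 * b6 * x3 + b8 = 0)
    (h5 : x5 ^ 4 - b4 * x5 ^ 2 - 2 * b6 * x5 - b8 =
      x5' * (4 * x5 ^ 3 + b2 * x5 ^ 2 + 2 * b4 * x5 + b6))
    (h5' : x5' ^ 4 - b4 * x5' ^ 2 - 2 * b6 * x5' - b8 =
      x5 * (4 * x5' ^ 3 + b2 * x5' ^ 2 + 2 * b4 * x5' + b6))
    (hne : x5 ≠ x5') (h35 : x3 ≠ x5) (h35' : x3 ≠ x5')
    (hB : 4 * x3 ^ 3 + b2 * x3 ^ 2 + 2 * b4 * x3 + b6 ≠ 0)
    (hx3 : x3 ∈ Set.range (algebraMap ℚ K)) (he1 : x5 + x5' ∈ Set.range (algebraMap ℚ K))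
    (he2 : x5 * x5' ∈ Set.range (algebraMap ℚ K)) : False := by
  obtain ⟨r3, hr3⟩ := hx3
  obtain ⟨e1, hr1⟩ := he1
  obtain ⟨e2, hr2⟩ := he2
  refine backend_false W hΔ hW b2 b4 b6 b8 x3 x5 x5' ?_ ?_ ?_ ?_ h3 h5 h5' hne h35 h35' hB
    r3 e1 e2 ?_ ?_ ?_
  · rw [hb2, eq_ratCast]; push_cast; rfl
  · rw [hb4, eq_ratCast]; push_cast; rfl
  · rw [hb6, eq_ratCast]; push_cast; rfl
  · rw [hb8, eq_ratCast]; push_cast; rfl
  · rw [← hr3, eq_ratCast]
  · rw [← hr1, eq_ratCast]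
  · rw [← hr2, eq_ratCast]

end Fermat.Agent.S51
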