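import Mathlib

/-!
# S51: counting lemmas

* `card_le_of_X_roots`: a set of points of a Weierstrass curve whose affine members have
  `x`-coordinates among the roots of a nonzero polynomial `p` is finite of cardinality at most
  `2 * deg p + 1`.
* `exists_generator_of_proper_submodule`: in a `ZMod p`-module with at most `p²` elements, a
  proper nonzero submodule is generated by any of its nonzero elements.
-/

set_option autoImplicit false

namespace Fermat.Agent.S51

open Polynomial WeierstrassCurve WeierstrassCurve.Affine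

/-- A set of points whose affine members have `x`-coordinate a root of `p ≠ 0` has at most
`2 deg p + 1` elements. -/
theorem card_le_of_X_roots {K : Type*} [Field K] (W : WeierstrassCurve K)
    (S : Set W.toAffine.Point) (p : K[X]) (hp : p ≠ 0)
    (hS : ∀ (x y : K) (h : W.toAffine.Nonsingular x y), Point.some x y h ∈ S → p.eval x = 0) :
    S.Finite ∧ S.ncard ≤ 2 * p.natDegree + 1 := by
  classical
  let Px : K → W.toAffine.Point := fun x =>
    if h : ∃ y, W.toAffine.Nonsingular x y then Point.some x h.choose h.choose_spec else 0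
  let g : K × Bool → W.toAffine.Point := fun xb => if xb.2 then Px xb.1 else -Px xb.1
  have hsub : S ⊆ ↑(insert (0 : W.toAffine.Point)
      ((p.roots.toFinset ×ˢ (Finset.univ : Finset Bool)).image g)) := by
    intro P hP
    rcases P with _ | ⟨x, y, h⟩
    · simp only [Finset.coe_insert, Set.mem_insert_iff]
      left; rfl
    · have hx : x ∈ p.roots.toFinset := by
        rw [Multiset.mem_toFinset, mem_roots hp]
        exact hS x y h hP
      have hex : ∃ y, W.toAffine.Nonsingular x y := ⟨y, h⟩
      have hPx : Px x = Point.some x hex.choose hex.choose_spec := dif_pos hex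
      simp only [Finset.coe_insert, Set.mem_insert_iff]
      right
      rw [Finset.mem_coe, Finset.mem_image]
      rcases (Point.X_eq_iff (h₁ := h) (h₂ := hex.choose_spec)).mp rfl with h1 | h1
      · exact ⟨(x, true), Finset.mem_product.mpr ⟨hx, Finset.mem_univ _⟩, by
          simp only [g, if_true, hPx]; exact h1.symm⟩
      · exact ⟨(x, false), Finset.mem_product.mpr ⟨hx, Finset.mem_univ _⟩, by
          simp only [g, hPx]; exact h1.symm⟩
  have hfin : S.Finite := (Finset.finite_toSet _).subset hsub
  refine ⟨hfin, ?_⟩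
  have h1 := Set.ncard_le_ncard hsub (Finset.finite_toSet _)
  rw [Set.ncard_coe_finset] at h1
  have h2 := Finset.card_insert_le (0 : W.toAffine.Point)
    ((p.roots.toFinset ×ˢ (Finset.univ : Finset Bool)).image g)
  have h3 : ((p.roots.toFinset ×ˢ (Finset.univ : Finset Bool)).image g).card ≤
      (p.roots.toFinset ×ˢ (Finset.univ : Finset Bool)).card := Finset.card_image_le
  have h4 : (p.roots.toFinset ×ˢ (Finset.univ : Finset Bool)).card = p.roots.toFinset.card * 2 := by
    rw [Finset.card_product]; simp
  have h5 : p.roots.toFinset.card ≤ p.natDegree :=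
    (Multiset.toFinset_card_le p.roots).trans (Polynomial.card_roots' p)
  omega

/-- In a `ZMod p`-module with at most `p²` elements, a proper nonzero submodule is a line. -/
theorem generator_of_proper_submodule {p : ℕ} [Fact p.Prime] {M : Type*}
    [AddCommGroup M] [Module (ZMod p) M] [Finite M] (hcard : Nat.card M ≤ p ^ 2)
    (N : Submodule (ZMod p) M) (htop : N ≠ ⊤) :
    ∀ P ∈ N, P ≠ 0 → ∀ Q ∈ N, ∃ k : ℕ, Q = k • P := by
  have hp : p.Prime := Fact.out
  have hcardM : Nat.card M = p ^ Module.finrank (ZMod p) M := by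
    rw [Module.natCard_eq_pow_finrank (K := ZMod p), Nat.card_zmod]
  have hM : Module.finrank (ZMod p) M ≤ 2 := by
    rw [hcardM] at hcard
    exact (Nat.pow_le_pow_iff_right hp.one_lt).mp hcard
  have hN : Module.finrank (ZMod p) N < Module.finrank (ZMod p) M :=
    Submodule.finrank_lt htop
  intro P hP hP0 Q hQ
  have hP0' : (⟨P, hP⟩ : N) ≠ 0 := fun h => hP0 (congrArg Subtype.val h)
  have hNpos : 0 < Module.finrank (ZMod p) N := by
    rw [Module.finrank_pos_iff]
    exact ⟨⟨⟨P, hP⟩, 0, hP0'⟩⟩
  have hN1 : Module.finrank (ZMod p) N = 1 := by omega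
  obtain ⟨c, hc⟩ := (finrank_eq_one_iff_of_nonzero' (⟨P, hP⟩ : N) hP0').mp hN1 ⟨Q, hQ⟩
  refine ⟨c.val, ?_⟩
  have h1 : c • P = Q := congrArg Subtype.val hc
  rw [← h1, ← Nat.cast_smul_eq_nsmul (ZMod p), ZMod.natCast_zmod_val]

/-- In a `ZMod p`-module with at most `p²` elements, a proper nonzero submodule is generated by
a nonzero element. -/
theorem exists_generator_of_proper_submodule {p : ℕ} [Fact p.Prime] {M : Type*}
    [AddCommGroup M] [Module (ZMod p) M] [Finite M] (hcard : Nat.card M ≤ p ^ 2)
    (N : Submodule (ZMod p) M) (hbot : N ≠ ⊥) (htop : N ≠ ⊤) :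
    ∃ P ∈ N, P ≠ 0 ∧ ∀ Q ∈ N, ∃ k : ℕ, Q = k • P := by
  obtain ⟨P, hP, hP0⟩ := N.exists_mem_ne_zero_of_ne_bot hbot
  exact ⟨P, hP, hP0, generator_of_proper_submodule hcard N htop P hP hP0⟩

end Fermat.Agent.S51
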