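import Mathlib.Tactic

/-!
# The key identity for `X₀(15)`: core polynomial certificate

Variables: `B2 B4 B6` are the `b`-invariants of a Weierstrass curve translated so that a point of
order `3` has `x = 0` (so that `b₈ = 0`, i.e. `B2 * B6 = B4 ^ 2`), and `s1 = u + u'`,
`s2 = u * u'` are the symmetric functions of the `x`-coordinates `u = x(P)`, `u' = x(2 P)` of a
point `P` of order `5`.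
-/

set_option autoImplicit false

namespace Fermat.Agent.S51

theorem key_identity_core {K : Type*} [Field K] (B2 B4 B6 s1 s2 : K)
    (hRa : s1 ^ 3 - 6 * s1 * s2 - B4 * s1 - B2 * s2 - B6 = 0)
    (hRc : s1 ^ 2 * s2 - 5 * s2 ^ 2 + B4 * s2 + B6 * s1 = 0)
    (hR3 : B2 * B6 - B4 ^ 2 = 0) (hs2 : s2 ≠ 0) :
    ((4 * s2 - s1 ^ 2) + s2) * s2 ^ 5 * (B4 ^ 3 - 27 * B6 ^ 2) ^ 2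
      + 5 * (4 * s2 - s1 ^ 2) ^ 3 * s2 ^ 3 * (B4 ^ 3 - 27 * B6 ^ 2) * B6 ^ 2
      - ((4 * s2 - s1 ^ 2) - 9 * s2) * (4 * s2 - s1 ^ 2) ^ 5 * B6 ^ 4 = 0 := by
  have h : s2 * (((4 * s2 - s1 ^ 2) + s2) * s2 ^ 5 * (B4 ^ 3 - 27 * B6 ^ 2) ^ 2
      + 5 * (4 * s2 - s1 ^ 2) ^ 3 * s2 ^ 3 * (B4 ^ 3 - 27 * B6 ^ 2) * B6 ^ 2
      - ((4 * s2 - s1 ^ 2) - 9 * s2) * (4 * s2 - s1 ^ 2) ^ 5 * B6 ^ 4) = 0 := by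
    linear_combination
      (-1 : K) * (
        -B6^5*s1^8 + 5*B6^5*s1^6*s2 - 5*B6^4*s1^7*s2^2 + 36*B6^4*s1^5*s2^3 - 50*B6^4*s1^3*s2^4
        - 10*B6^3*s1^8*s2^3 + 147*B6^3*s1^6*s2^4 - 715*B6^3*s1^4*s2^5 + 1125*B6^3*s1^2*s2^6
        + 125*B6^3*s2^7 - 6*B6^2*s1^9*s2^4 + 121*B6^2*s1^7*s2^5 - 915*B6^2*s1^5*s2^6 + 3075*B6^2*s1^3*s2^7
        - 3875*B6^2*s1*s2^8 - B6*s1^10*s2^5 + 25*B6*s1^8*s2^6 - 250*B6*s1^6*s2^7 + 1250*B6*s1^4*s2^8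
        - 3125*B6*s1^2*s2^9 + 3125*B6*s2^10) * hRa
      + (-1 : K) * (
        B4^5*s1^2*s2^5 - 5*B4^5*s2^6 - B4^4*B6*s1^3*s2^4 + 5*B4^4*B6*s1*s2^5 - B4^4*s1^4*s2^5
        + 10*B4^4*s1^2*s2^6 - 25*B4^4*s2^7 + B4^3*B6^2*s1^4*s2^3 - 5*B4^3*B6^2*s1^2*s2^4
        + 2*B4^3*B6*s1^5*s2^4 - 20*B4^3*B6*s1^3*s2^5 + 50*B4^3*B6*s1*s2^6 + B4^3*s1^6*s2^5
        - 15*B4^3*s1^4*s2^6 + 75*B4^3*s1^2*s2^7 - 125*B4^3*s2^8 - B4^2*B6^3*s1^5*s2^2 + 5*B4^2*B6^3*s1^3*s2^3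
        + 2*B4^2*B6^2*s1^6*s2^3 - 30*B4^2*B6^2*s1^4*s2^4 + 111*B4^2*B6^2*s1^2*s2^5 - 50*B4^2*B6^2*s2^6
        - 3*B4^2*B6*s1^7*s2^4 + 45*B4^2*B6*s1^5*s2^5 - 225*B4^2*B6*s1^3*s2^6 + 375*B4^2*B6*s1*s2^7
        - B4^2*s1^8*s2^5 + 20*B4^2*s1^6*s2^6 - 150*B4^2*s1^4*s2^7 + 500*B4^2*s1^2*s2^8 - 625*B4^2*s2^9
        - B4*B6^4*s1^8 + 6*B4*B6^4*s1^6*s2 - 5*B4*B6^4*s1^4*s2^2 - 6*B4*B6^3*s1^7*s2^2 + 56*B4*B6^3*s1^5*s2^3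
        - 136*B4*B6^3*s1^3*s2^4 + 50*B4*B6^3*s1*s2^5 - 9*B4*B6^2*s1^8*s2^3 + 142*B4*B6^2*s1^6*s2^4
        - 751*B4*B6^2*s1^4*s2^5 + 1355*B4*B6^2*s1^2*s2^6 - 125*B4*B6^2*s2^7 - 2*B4*B6*s1^9*s2^4
        + 41*B4*B6*s1^7*s2^5 - 315*B4*B6*s1^5*s2^6 + 1075*B4*B6*s1^3*s2^7 - 1375*B4*B6*s1*s2^8
        - B6^5*s1^7 + 5*B6^5*s1^5*s2 + B6^4*s1^10 - 10*B6^4*s1^8*s2 + 15*B6^4*s1^6*s2^2 + 61*B6^4*s1^4*s2^3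
        - 50*B6^4*s1^2*s2^4 + 5*B6^3*s1^9*s2^2 - 81*B6^3*s1^7*s2^3 + 452*B6^3*s1^5*s2^4 - 960*B6^3*s1^3*s2^5
        + 500*B6^3*s1*s2^6 + 5*B6^2*s1^10*s2^3 - 107*B6^2*s1^8*s2^4 + 861*B6^2*s1^6*s2^5
        - 3110*B6^2*s1^4*s2^6 + 4400*B6^2*s1^2*s2^7 - 625*B6^2*s2^8 + B6*s1^11*s2^4 - 26*B6*s1^9*s2^5
        + 270*B6*s1^7*s2^6 - 1400*B6*s1^5*s2^7 + 3625*B6*s1^3*s2^8 - 3750*B6*s1*s2^9) * hRc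
      + (-1 : K) * (
        -B6^4*s1^8*s2 + 5*B6^4*s1^6*s2^2 - 5*B6^3*s1^7*s2^3 + 36*B6^3*s1^5*s2^4 - 50*B6^3*s1^3*s2^5
        - 10*B6^2*s1^8*s2^4 + 147*B6^2*s1^6*s2^5 - 715*B6^2*s1^4*s2^6 + 1125*B6^2*s1^2*s2^7
        + 125*B6^2*s2^8 - 6*B6*s1^9*s2^5 + 121*B6*s1^7*s2^6 - 915*B6*s1^5*s2^7 + 3075*B6*s1^3*s2^8
        - 3875*B6*s1*s2^9 - s1^10*s2^6 + 25*s1^8*s2^7 - 250*s1^6*s2^8 + 1250*s1^4*s2^9 - 3125*s1^2*s2^10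
        + 3125*s2^11) * hR3
  exact (mul_eq_zero.mp h).resolve_left hs2

end Fermat.Agent.S51
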