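import Fermat.Agent.S51.Descent

/-!
# S51: from the key identity to the four values of the Hauptmodul `s`

If `s, v ∈ ℚ` are nonzero and satisfy the modular equation
`(v + 1) s² + 5 v³ s - (v - 9) v⁵ = 0` of `X₀(15)`, then
`y = (2 (v + 1) s + 5 v³) / v²` satisfies `y² = v (v - 4) (4 v + 9)`, so by the descent
`v ∈ {4, -9/4, 9, -1}` and `s ∈ {-32, -729/32, -729/2, -2}`.
-/

set_option autoImplicit false

namespace Fermat.Agent.S51

/-- The discriminant of the modular equation is `v⁴ · v (v - 4) (4 v + 9)`. -/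
theorem x15_point_of_key_identity (s v : ℚ) (hv : v ≠ 0)
    (h : (v + 1) * s ^ 2 + 5 * v ^ 3 * s - (v - 9) * v ^ 5 = 0) :
    ((2 * (v + 1) * s + 5 * v ^ 3) / v ^ 2) ^ 2 = v * (v - 4) * (4 * v + 9) := by
  rw [div_pow]
  field_simp
  linear_combination 4 * (v + 1) * h

/-- The possible values of `v`. -/
theorem v_of_key_identity (s v : ℚ) (hv : v ≠ 0)
    (h : (v + 1) * s ^ 2 + 5 * v ^ 3 * s - (v - 9) * v ^ 5 = 0) :
    v = 4 ∨ v = -9/4 ∨ v = 9 ∨ v = -1 := by
  rcases x15_rational_points v _ (x15_point_of_key_identity s v hv h) with h0 | h0 | h0 | h0 | h0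
  · exact absurd h0 hv
  · exact Or.inl h0
  · exact Or.inr (Or.inl h0)
  · exact Or.inr (Or.inr (Or.inl h0))
  · exact Or.inr (Or.inr (Or.inr h0))

/-- The possible values of the Hauptmodul `s`. -/
theorem s_of_key_identity (s v : ℚ) (hs : s ≠ 0) (hv : v ≠ 0)
    (h : (v + 1) * s ^ 2 + 5 * v ^ 3 * s - (v - 9) * v ^ 5 = 0) :
    s = -32 ∨ s = -729/32 ∨ s = -729/2 ∨ s = -2 := by
  rcases v_of_key_identity s v hv h with rfl | rfl | rfl | rfl
  · left
    have h1 : (s + 32) ^ 2 = 0 := by linear_combination (1 / 5 : ℚ) * h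
    have h2 : s + 32 = 0 := pow_eq_zero_iff two_ne_zero |>.mp h1
    linarith
  · right; left
    have h1 : (s + 729 / 32) ^ 2 = 0 := by linear_combination (-4 / 5 : ℚ) * h
    have h2 : s + 729 / 32 = 0 := pow_eq_zero_iff two_ne_zero |>.mp h1
    linarith
  · right; right; left
    have h1 : s * (s + 729 / 2) = 0 := by linear_combination (1 / 10 : ℚ) * h
    rcases mul_eq_zero.mp h1 with h2 | h2
    · exact absurd h2 hs
    · linarith
  · right; right; right
    linarith

end Fermat.Agent.S51
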