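import Mathlib.Tactic
import Mathlib.Data.Rat.Lemmas
import Mathlib.RingTheory.Coprime.Basic
import Mathlib.RingTheory.Int.Basic

/-!
# Rational points of `y² = x (x - 4) (4 x + 9)` from the quartic `m⁴ - 322 m² n² + n⁴ = w²`

This is the reduction step: the curve `X₀(15) : y² = x (x - 4) (4 x + 9)` maps (by a
`4`-isogeny) to the quartic `z⁴ - 322 z² + 1 = w²`; if the quartic has only the trivial
rational points, then `X₀(15)` has only the points with `x ∈ {0, 4, -9/4, 9, -1}`.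
-/

set_option autoImplicit false

namespace Fermat.Agent.S51

/-- The hypothesis "Theorem D" (integer form). -/
def QuarticTrivial : Prop :=
  ∀ m n w : ℤ, IsCoprime m n → m ^ 4 - 322 * m ^ 2 * n ^ 2 + n ^ 4 = w ^ 2 → m = 0 ∨ n = 0

/-- A rational number whose square is an integer is an integer. -/
theorem exists_int_eq_of_sq_eq_int (W : ℚ) (k : ℤ) (h : W ^ 2 = (k : ℚ)) :
    ∃ v : ℤ, (v : ℚ) = W := by
  have h1 : (W ^ 2).den = 1 := by rw [h]; exact Rat.den_intCast k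
  rw [Rat.den_pow] at h1
  have h2 : W.den = 1 := by
    rcases pow_eq_one_iff.mp h1 with h0 | h0
    · exact h0
    · exact absurd h0 (by norm_num)
  exact ⟨W.num, Rat.coe_int_num_of_den_eq_one h2⟩

/-- Rational form of "Theorem D". -/
theorem quartic_rat_of_int (hD : QuarticTrivial) (z w : ℚ)
    (h : z ^ 4 - 322 * z ^ 2 + 1 = w ^ 2) : z = 0 := by
  have hn : (z.den : ℚ) ≠ 0 := by exact_mod_cast z.den_nz
  have hz : z = (z.num : ℚ) / (z.den : ℚ) := (Rat.num_div_den z).symm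
  have hW : (w * (z.den : ℚ) ^ 2) ^ 2 =
      (((z.num ^ 4 - 322 * z.num ^ 2 * (z.den : ℤ) ^ 2 + (z.den : ℤ) ^ 4 : ℤ)) : ℚ) := by
    push_cast
    have h3 : (z.num : ℚ) = z * (z.den : ℚ) := (Rat.mul_den_eq_num z).symm
    rw [h3, mul_pow, ← h]
    ring
  obtain ⟨v, hv⟩ := exists_int_eq_of_sq_eq_int _ _ hW
  have h4 : z.num ^ 4 - 322 * z.num ^ 2 * (z.den : ℤ) ^ 2 + (z.den : ℤ) ^ 4 = v ^ 2 := by
    have : ((v ^ 2 : ℤ) : ℚ) =
        (((z.num ^ 4 - 322 * z.num ^ 2 * (z.den : ℤ) ^ 2 + (z.den : ℤ) ^ 4 : ℤ)) : ℚ) := by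
      rw [← hW, ← hv]; push_cast; ring
    exact_mod_cast this.symm
  have hcop : IsCoprime z.num (z.den : ℤ) := by
    rw [Int.isCoprime_iff_gcd_eq_one]
    have := z.reduced
    simpa [Int.gcd, Nat.Coprime] using this
  rcases hD _ _ _ hcop h4 with h5 | h5
  · exact Rat.num_eq_zero.mp h5
  · exact absurd (by exact_mod_cast h5) z.den_nz

/-- Rational points of `X₀(15) : y² = x (x - 4) (4 x + 9)`, assuming "Theorem D". -/
theorem x15_of_quartic (hD : QuarticTrivial) (x y : ℚ)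
    (h : y ^ 2 = x * (x - 4) * (4 * x + 9)) :
    x = 0 ∨ x = 4 ∨ x = -9/4 ∨ x = 9 ∨ x = -1 := by
  by_cases hx4 : x = 4
  · exact Or.inr (Or.inl hx4)
  by_cases hx9 : x = 9
  · exact Or.inr (Or.inr (Or.inr (Or.inl hx9)))
  -- `t = 4 x - 16 ≠ 0, 20`
  have ht0 : 4 * x - 16 ≠ 0 := fun h0 => hx4 (by linarith)
  have ht20 : 4 * x - 16 - 20 ≠ 0 := fun h0 => hx9 (by linarith)
  set t : ℚ := 4 * x - 16 with ht
  have hY : (4 * y) ^ 2 = t * (t + 16) * (t + 25) := by
    rw [mul_pow, h, ht]; ring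
  set z : ℚ := (t + 20) * (4 * y) / (t * (t - 20)) with hz
  set X : ℚ := (t - 20) ^ 2 / t with hX
  have hX0 : X ≠ 0 := by
    rw [hX]; exact div_ne_zero (pow_ne_zero 2 ht20) ht0
  have hz2 : z ^ 2 = (t + 20) ^ 2 * (t + 16) * (t + 25) / (t * (t - 20) ^ 2) := by
    rw [hz, div_pow, mul_pow, hY]
    field_simp
  have hquartic : z ^ 4 - 322 * z ^ 2 + 1 = (X - 6480 / X) ^ 2 := by
    have : z ^ 4 = (z ^ 2) ^ 2 := by ring
    rw [this, hz2, hX]
    field_simp
    ring
  have hz0 := quartic_rat_of_int hD z _ hquartic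
  -- so `(t + 20) * y = 0`
  have h1 : (t + 20) * (4 * y) = 0 := by
    rw [hz] at hz0
    rcases div_eq_zero_iff.mp hz0 with h2 | h2
    · exact h2
    · exact absurd h2 (mul_ne_zero ht0 ht20)
  rcases mul_eq_zero.mp h1 with h2 | h2
  · -- `t = -20`, i.e. `x = -1`
    right; right; right; right
    rw [ht] at h2; linarith
  · -- `y = 0`
    have hy : y = 0 := by
      rcases mul_eq_zero.mp h2 with h3 | h3
      · norm_num at h3
      · exact h3
    rw [hy] at h
    have h3 : x * (x - 4) * (4 * x + 9) = 0 := by rw [← h]; ring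
    rcases mul_eq_zero.mp h3 with h4 | h4
    · rcases mul_eq_zero.mp h4 with h5 | h5
      · exact Or.inl h5
      · exact Or.inr (Or.inl (by linarith))
    · exact Or.inr (Or.inr (Or.inl (by linarith)))

end Fermat.Agent.S51
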